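/-
Project MAZUR (S15), node [F-DESC] (helper9): subquotients `U / V` of an ambient `Γ`-module `J`
(`V ≤ U` stable subgroups of `J`) as `Γ`-modules, the natural maps between them, and the short
exact sequence `0 → U'/V → U/V → U/U' → 0` for `V ≤ U' ≤ U`.
Prefix `mzds_`.
-/
import Fermat.Agent.MZ.H.Exact

set_option autoImplicit false
set_option linter.style.haveILetI false

namespace Fermat.Agent.MZ

section

variable {Γ : Type*} [Group Γ] {J : Type*} [AddCommGroup J] [DistribMulAction Γ J]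

/-- The subquotient `U / (V ∩ U)`. -/
abbrev mzds_SQ (U V : AddSubgroup J) : Type _ := ↥U ⧸ V.addSubgroupOf U

theorem mzds_stable_addSubgroupOf (U V : AddSubgroup J) (hU : mzh_Stable Γ U)
    (hV : mzh_Stable Γ V) :
    @mzh_Stable Γ _ ↥U _ (mzh_subAction U hU) (V.addSubgroupOf U) := by
  intro σ a ha
  rw [AddSubgroup.mem_addSubgroupOf] at ha ⊢
  exact hV σ _ ha

/-- The action of `Γ` on a subquotient of stable subgroups. -/
@[reducible] def mzds_sqAction (U V : AddSubgroup J) (hU : mzh_Stable Γ U)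
    (hV : mzh_Stable Γ V) : DistribMulAction Γ (mzds_SQ U V) :=
  @mzh_quotAction Γ _ ↥U _ (mzh_subAction U hU) (V.addSubgroupOf U)
    (mzds_stable_addSubgroupOf U V hU hV)

theorem mzds_sq_smul_mk (U V : AddSubgroup J) (hU : mzh_Stable Γ U) (hV : mzh_Stable Γ V)
    (σ : Γ) (a : ↥U) :
    (letI := mzds_sqAction U V hU hV; σ • (QuotientAddGroup.mk a : mzds_SQ U V)) =
      (QuotientAddGroup.mk (⟨σ • (a : J), hU σ a a.2⟩ : ↥U) : mzds_SQ U V) := rfl

/-- The natural map `U/V → U'/V'` for `U ≤ U'`, `V ≤ V'`. -/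
def mzds_sqMap {U U' V V' : AddSubgroup J} (hU : U ≤ U') (hV : V ≤ V') :
    mzds_SQ U V →+ mzds_SQ U' V' :=
  QuotientAddGroup.map _ _ (AddSubgroup.inclusion hU) (by
    intro a ha
    rw [AddSubgroup.mem_addSubgroupOf] at ha
    rw [AddSubgroup.mem_comap, AddSubgroup.mem_addSubgroupOf]
    exact hV ha)

@[simp] theorem mzds_sqMap_mk {U U' V V' : AddSubgroup J} (hU : U ≤ U') (hV : V ≤ V') (a : ↥U) :
    mzds_sqMap hU hV (QuotientAddGroup.mk a : mzds_SQ U V) =
      (QuotientAddGroup.mk (AddSubgroup.inclusion hU a) : mzds_SQ U' V') := rfl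

theorem mzds_sqMap_smul {U U' V V' : AddSubgroup J} (hU : U ≤ U') (hV : V ≤ V')
    (hsU : mzh_Stable Γ U) (hsV : mzh_Stable Γ V) (hsU' : mzh_Stable Γ U')
    (hsV' : mzh_Stable Γ V') (σ : Γ) (x : mzds_SQ U V) :
    mzds_sqMap hU hV (letI := mzds_sqAction U V hsU hsV; σ • x) =
      (letI := mzds_sqAction U' V' hsU' hsV'; σ • mzds_sqMap hU hV x) := by
  induction x using QuotientAddGroup.induction_on with
  | H a => rfl

theorem mzds_sqMap_comp {U U' U'' V V' V'' : AddSubgroup J} (hU : U ≤ U') (hV : V ≤ V')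
    (hU' : U' ≤ U'') (hV' : V' ≤ V'') (x : mzds_SQ U V) :
    mzds_sqMap hU' hV' (mzds_sqMap hU hV x) = mzds_sqMap (hU.trans hU') (hV.trans hV') x := by
  induction x using QuotientAddGroup.induction_on with
  | H a => rfl

/-- The short exact sequence `0 → U'/V → U/V → U/U' → 0`. -/
theorem mzds_isSES {U U' V : AddSubgroup J} (hU : U' ≤ U) (hV : V ≤ U')
    (hsU : mzh_Stable Γ U) (hsU' : mzh_Stable Γ U') (hsV : mzh_Stable Γ V) :
    @mzh_IsSES Γ _ (mzds_SQ U' V) (mzds_SQ U V) (mzds_SQ U U') _ (mzds_sqAction U' V hsU' hsV) _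
      (mzds_sqAction U V hsU hsV) _ (mzds_sqAction U U' hsU hsU')
      (mzds_sqMap hU le_rfl) (mzds_sqMap le_rfl hV) := by
  letI := mzds_sqAction U' V hsU' hsV
  letI := mzds_sqAction U V hsU hsV
  letI := mzds_sqAction U U' hsU hsU'
  refine ⟨fun σ x => mzds_sqMap_smul hU le_rfl hsU' hsV hsU hsV σ x,
    fun σ x => mzds_sqMap_smul le_rfl hV hsU hsV hsU hsU' σ x, ?_, ?_, ?_⟩
  · -- injectivity
    rw [injective_iff_map_eq_zero]
    intro x hx
    induction x using QuotientAddGroup.induction_on with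
    | H a =>
      rw [mzds_sqMap_mk, QuotientAddGroup.eq_zero_iff, AddSubgroup.mem_addSubgroupOf] at hx
      rw [QuotientAddGroup.eq_zero_iff, AddSubgroup.mem_addSubgroupOf]
      exact hx
  · -- surjectivity
    intro y
    induction y using QuotientAddGroup.induction_on with
    | H a => exact ⟨QuotientAddGroup.mk a, by rw [mzds_sqMap_mk]; rfl⟩
  · -- exactness
    intro b
    induction b using QuotientAddGroup.induction_on with
    | H a =>
      rw [mzds_sqMap_mk, QuotientAddGroup.eq_zero_iff, AddSubgroup.mem_addSubgroupOf]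
      constructor
      · intro ha
        exact ⟨QuotientAddGroup.mk (⟨(a : J), ha⟩ : ↥U'), rfl⟩
      · rintro ⟨x, hx⟩
        induction x using QuotientAddGroup.induction_on with
        | H a' =>
          rw [mzds_sqMap_mk, QuotientAddGroup.eq_iff_sub_mem, AddSubgroup.mem_addSubgroupOf] at hx
          have h1 : ((AddSubgroup.inclusion hU a' : ↥U) : J) - (a : J) ∈ V := hx
          have h2 : (a : J) = (a' : J) - (((AddSubgroup.inclusion hU a' : ↥U) : J) - (a : J)) := by
            show (a : J) = (a' : J) - ((a' : J) - (a : J))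
            abel
          show ((AddSubgroup.inclusion le_rfl a : ↥U) : J) ∈ U'
          show (a : J) ∈ U'
          rw [h2]
          exact U'.sub_mem a'.2 (hV h1)

/-- `|U/V| = [U : V]`. -/
theorem mzds_card_SQ (U V : AddSubgroup J) : Nat.card (mzds_SQ U V) = V.relIndex U := by
  rw [AddSubgroup.relIndex, AddSubgroup.index_eq_card]

end

end Fermat.Agent.MZ
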