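/-
Project MAZUR (S15), node [F-DESC] (helper9): vocabulary and input seams of the Selmer bound.

`GQ := Gal(Q̄/ℚ)`; classes live in `mzh_H1 GQ E` (`MZ/H/Coh.lean`).
* `mzds_Cont x`        : the class `x` is continuous (a representative vanishes on an open subgroup);
* `mzds_UnitAt T A x`  : the class `x` of a module `E ≅ μ_r` (through `T`) is, on the inertia group
                         of the place `A`, the Kummer class of a UNIT of `A`;
* `mzds_SeamTriv`, `mzds_SeamMu` : the (F6) leaf bounds (arithmetic of `ℚ`);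
* `mzds_SeamCycT`      : the constructor of `T` for a module on which `GQ` acts through the
                         cyclotomic character.
(`mzds_Cont`, `mzds_UnitAt` are verbatim helper22's `mzq_Cont`, `mzq_UnitAt` of finding #2923.)
Prefix `mzds_`.
-/
import Fermat.Agent.MZ.H.Coh
import Fermat.Prelude.Def_FLTPrelim_Ramification

set_option autoImplicit false

namespace Fermat.Agent.MZ

local notation "Qb" => AlgebraicClosure ℚ
local notation "GQ" => (AlgebraicClosure ℚ ≃ₐ[ℚ] AlgebraicClosure ℚ)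

/-- The class `x` is continuous: some representative vanishes on the absolute Galois group of a
number field. -/
def mzds_Cont {E : Type*} [AddCommGroup E] [DistribMulAction GQ E] (x : mzh_H1 GQ E) : Prop :=
  ∃ c : ↥(mzh_Z1 GQ E), mzh_cls GQ E c = x ∧ ∃ K : IntermediateField ℚ Qb,
    FiniteDimensional ℚ K ∧ ∀ σ ∈ K.fixingSubgroup, (c : GQ → E) σ = 0

/-- The class `x` is, on the inertia group of `A`, the Kummer class of a unit of `A`
(`E ≅ μ_r` through the character `T`). -/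
def mzds_UnitAt {E : Type*} [AddCommGroup E] [DistribMulAction GQ E] (T : E → Qb)
    (A : ValuationSubring Qb) (x : mzh_H1 GQ E) : Prop :=
  ∃ c : ↥(mzh_Z1 GQ E), mzh_cls GQ E c = x ∧ ∃ β : Qb, β ∈ A ∧ β⁻¹ ∈ A ∧
    ∀ σ ∈ A.inertiaSubgroupIn ℚ, T ((c : GQ → E) σ) * β = σ β

/-- **(F6), `ℤ/r`-leaves**: a group of continuous characters of order `r`, unramified outside `p`,
has at most `r` elements; if moreover unramified at `p`, it is trivial. -/
def mzds_SeamTriv (p r : ℕ) (Ap : ValuationSubring Qb) : Prop :=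
  ∀ (E : Type) [AddCommGroup E] [DistribMulAction GQ E], Nat.card E = r →
    (∀ (σ : GQ) (e : E), σ • e = e) →
  ∀ LE : AddSubgroup (mzh_H1 GQ E),
    (∀ x ∈ LE, mzds_Cont x ∧ ∀ ℓ : ℕ, ℓ.Prime → ℓ ≠ p →
      ∃ A : ValuationSubring Qb, A.LiesOverPrime ℓ ∧
        mzh_H1resSub (A.inertiaSubgroupIn ℚ) x = 0) →
    Finite ↥LE ∧ Nat.card ↥LE ≤ r ∧
      ((∀ x ∈ LE, mzh_H1resSub (Ap.inertiaSubgroupIn ℚ) x = 0) → Nat.card ↥LE ≤ 1)

/-- **(F6), `μ_r`-leaves**: a group of continuous classes of `H¹(ℚ, μ_r)` which are unit classes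
outside `p` has at most `r · |μ_r(ℚ)|` elements; if moreover unit at `p`, at most `|μ_r(ℚ)|`. -/
def mzds_SeamMu (p r : ℕ) (Ap : ValuationSubring Qb) : Prop :=
  ∀ (E : Type) [AddCommGroup E] [DistribMulAction GQ E], Nat.card E = r →
  ∀ T : E → Qb, (∀ a b : E, T (a + b) = T a * T b) → Function.Injective T →
    (∀ (σ : GQ) (e : E), T (σ • e) = σ (T e)) →
  ∀ LE : AddSubgroup (mzh_H1 GQ E),
    (∀ x ∈ LE, mzds_Cont x ∧ ∀ ℓ : ℕ, ℓ.Prime → ℓ ≠ p →
      ∃ A : ValuationSubring Qb, A.LiesOverPrime ℓ ∧ mzds_UnitAt T A x) →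
    Finite ↥LE ∧ Nat.card ↥LE ≤ r * Nat.card ↥(mzh_H0 GQ E) ∧
      ((∀ x ∈ LE, mzds_UnitAt T Ap x) → Nat.card ↥LE ≤ Nat.card ↥(mzh_H0 GQ E))

/-- **The constructor of `T`**: a module of order `r` on which `GQ` acts through `cyc`
(`σ • e = cyc σ • e`, `cyc σ` the value of the mod-`r` cyclotomic character) is `μ_r`. -/
def mzds_SeamCycT (r : ℕ) (cyc : GQ → ℕ) : Prop :=
  ∀ (E : Type) [AddCommGroup E] [DistribMulAction GQ E], Nat.card E = r →
    (∀ (σ : GQ) (e : E), σ • e = cyc σ • e) →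
  ∃ T : E → Qb, (∀ a b : E, T (a + b) = T a * T b) ∧ Function.Injective T ∧
    ∀ (σ : GQ) (e : E), T (σ • e) = σ (T e)

end Fermat.Agent.MZ
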