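/-
Project MAZUR (S15), node [F-DESC] (helper9): PROPAGATION OF THE LOCAL CONDITIONS TO A LEAF.

Setting: `GQ`-modules `G` (the top module `W_k`), `Q` (a quotient `W_k / F_{j+1}`), `E` (the leaf
`F_j / F_{j+1}`), `π : G → Q` onto, `ι : E → Q` injective, both equivariant; classes
`x ∈ H¹(GQ, E)`, `y ∈ H¹(GQ, G)` with `ι_* x = π_* y` (the PROPAGATED condition: `x` is in the
preimage of the image of the Selmer group).  Then
* `mzds_leaf_rep`   : representatives satisfy `ι (zE σ) = π (z σ) + σ q₀ - q₀`;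
* `mzds_leaf_cont`  : `y` continuous, `G` with open stabilisers ⟹ `x` continuous;
* `mzds_leaf_unram` : `I` acts trivially on `G`, `y` unramified on `I` ⟹ `x` unramified on `I`;
* `mzds_leaf_triv_r`, `mzds_leaf_mu_r` : at the place `A_r` above `r`: [HOPF] (OUT-1), (OUT-2);
* `mzds_unitAt_of_unram` : unramified ⟹ unit class.
Prefix `mzds_`.
-/
import Fermat.Agent.MZ.Desc.Seams
import Fermat.Agent.MZ.Hopf.Assembly

set_option autoImplicit false
set_option linter.style.haveILetI false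
set_option linter.unusedSectionVars false

noncomputable section

namespace Fermat.Agent.MZ

local notation "Qb" => AlgebraicClosure ℚ
local notation "GQ" => (AlgebraicClosure ℚ ≃ₐ[ℚ] AlgebraicClosure ℚ)

section Abstract

variable {Γ : Type*} [Group Γ] {G Q E : Type*} [AddCommGroup G] [DistribMulAction Γ G]
  [AddCommGroup Q] [DistribMulAction Γ Q] [AddCommGroup E] [DistribMulAction Γ E]

/-- Representatives of classes with `ι_* x = π_* y` differ by a coboundary of `Q`. -/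
theorem mzds_leaf_rep (π : G →+ Q) (hπe : ∀ (σ : Γ) (g : G), π (σ • g) = σ • π g)
    (ι : E →+ Q) (hιe : ∀ (σ : Γ) (e : E), ι (σ • e) = σ • ι e)
    (zE : ↥(mzh_Z1 Γ E)) (z : ↥(mzh_Z1 Γ G))
    (h : mzh_H1map ι hιe (mzh_cls Γ E zE) = mzh_H1map π hπe (mzh_cls Γ G z)) :
    ∃ q₀ : Q, ∀ σ : Γ, ι ((zE : Γ → E) σ) = π ((z : Γ → G) σ) + σ • q₀ - q₀ := by
  rw [mzh_H1map_cls, mzh_H1map_cls, mzh_cls_eq_iff] at h
  obtain ⟨a, ha⟩ := h
  refine ⟨a, fun σ => ?_⟩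
  have := ha σ
  rw [mzh_Z1map_apply, mzh_Z1map_apply] at this
  rw [add_sub_assoc, ← this]
  abel

/-- **Unramified leaves**: if `I` acts trivially on `G` and `y` is unramified on `I`, so is `x`. -/
theorem mzds_leaf_unram (π : G →+ Q) (hπ : Function.Surjective π)
    (hπe : ∀ (σ : Γ) (g : G), π (σ • g) = σ • π g)
    (ι : E →+ Q) (hι : Function.Injective ι) (hιe : ∀ (σ : Γ) (e : E), ι (σ • e) = σ • ι e)
    (I : Subgroup Γ) (hI : ∀ σ ∈ I, ∀ g : G, σ • g = g)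
    (x : mzh_H1 Γ E) (y : mzh_H1 Γ G) (h : mzh_H1map ι hιe x = mzh_H1map π hπe y)
    (hy : mzh_H1resSub I y = 0) : mzh_H1resSub I x = 0 := by
  obtain ⟨zE, rfl⟩ := mzh_cls_surjective Γ E x
  obtain ⟨z, rfl⟩ := mzh_cls_surjective Γ G y
  obtain ⟨q₀, hq⟩ := mzds_leaf_rep π hπe ι hιe zE z h
  rw [mzh_H1resSub_eq_zero_iff] at hy ⊢
  obtain ⟨a, ha⟩ := hy
  obtain ⟨g₀, rfl⟩ := hπ q₀
  refine ⟨0, fun σ hσ => ?_⟩
  apply hι
  rw [hq σ, ha σ hσ, hI σ hσ a, sub_self, map_zero, zero_add, ← hπe, hI σ hσ g₀, sub_self,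
    smul_zero, sub_zero, map_zero]

end Abstract

section Cont

variable {G Q E : Type*} [AddCommGroup G] [DistribMulAction GQ G]
  [AddCommGroup Q] [DistribMulAction GQ Q] [AddCommGroup E] [DistribMulAction GQ E]

/-- **Continuous leaves.** -/
theorem mzds_leaf_cont (π : G →+ Q) (hπ : Function.Surjective π)
    (hπe : ∀ (σ : GQ) (g : G), π (σ • g) = σ • π g)
    (ι : E →+ Q) (hι : Function.Injective ι) (hιe : ∀ (σ : GQ) (e : E), ι (σ • e) = σ • ι e)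
    (hG : ∀ g : G, ∃ K : IntermediateField ℚ Qb, FiniteDimensional ℚ K ∧
      ∀ σ ∈ K.fixingSubgroup, σ • g = g)
    (x : mzh_H1 GQ E) (y : mzh_H1 GQ G) (h : mzh_H1map ι hιe x = mzh_H1map π hπe y)
    (hy : mzds_Cont y) : mzds_Cont x := by
  obtain ⟨z, rfl, K₁, hK₁, hz⟩ := hy
  obtain ⟨zE, rfl⟩ := mzh_cls_surjective GQ E x
  obtain ⟨q₀, hq⟩ := mzds_leaf_rep π hπe ι hιe zE z h
  obtain ⟨g₀, rfl⟩ := hπ q₀
  obtain ⟨K₂, hK₂, hg₀⟩ := hG g₀
  haveI := hK₁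
  haveI := hK₂
  refine ⟨zE, rfl, K₁ ⊔ K₂, IntermediateField.finiteDimensional_sup K₁ K₂, fun σ hσ => ?_⟩
  have h1 : σ ∈ K₁.fixingSubgroup := IntermediateField.fixingSubgroup_le le_sup_left hσ
  have h2 : σ ∈ K₂.fixingSubgroup := IntermediateField.fixingSubgroup_le le_sup_right hσ
  apply hι
  rw [hq σ, hz σ h1, map_zero, zero_add, ← hπe, hg₀ σ h2, sub_self, map_zero]

end Cont

section Unit

variable {E : Type*} [AddCommGroup E] [DistribMulAction GQ E]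

/-- A value of a character of a finite group lies in every valuation subring. -/
theorem mzds_T_mem [Finite E] (T : E → Qb) (hT : ∀ a b : E, T (a + b) = T a * T b)
    (hT0 : T 0 = 1) (A : ValuationSubring Qb) (a : E) : T a ∈ A := by
  have hn : 0 < Nat.card E := Nat.card_pos
  have hpow : ∀ n : ℕ, T (n • a) = T a ^ n := by
    intro n
    induction n with
    | zero => rw [zero_smul, pow_zero, hT0]
    | succ n ih => rw [succ_nsmul, hT, ih, pow_succ]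
  have h1 : T a ^ Nat.card E = 1 := by
    rw [← hpow, card_nsmul_eq_zero', hT0]
  rw [← A.valuation_le_one_iff]
  have h2 : A.valuation (T a) ^ Nat.card E = 1 := by
    rw [← map_pow, h1, map_one]
  by_contra hcon
  have h3 : 1 < A.valuation (T a) ^ Nat.card E := one_lt_pow₀ (not_le.mp hcon) hn.ne'
  rw [h2] at h3
  exact lt_irrefl _ h3

/-- A multiplicative injective `T` on a nontrivial group has `T 0 = 1`. -/
theorem mzds_T_zero [Nontrivial E] (T : E → Qb) (hT : ∀ a b : E, T (a + b) = T a * T b)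
    (hTi : Function.Injective T) : T 0 = 1 := by
  have h1 : T 0 * T 0 = T 0 := by rw [← hT, add_zero]
  have h2 : T 0 ≠ 0 := by
    intro h0
    obtain ⟨e, he⟩ := exists_ne (0 : E)
    apply he
    apply hTi
    have : T e = T (e + 0) := by rw [add_zero]
    rw [this, hT, h0, mul_zero]
  exact mul_left_cancel₀ h2 (by rw [h1, mul_one])

/-- **Unramified ⟹ unit class.** -/
theorem mzds_unitAt_of_unram [Finite E] [Nontrivial E] (T : E → Qb)
    (hT : ∀ a b : E, T (a + b) = T a * T b)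
    (hTi : Function.Injective T) (hTe : ∀ (σ : GQ) (e : E), T (σ • e) = σ (T e))
    (A : ValuationSubring Qb) (x : mzh_H1 GQ E)
    (hx : mzh_H1resSub (A.inertiaSubgroupIn ℚ) x = 0) : mzds_UnitAt T A x := by
  have hT0 : T 0 = 1 := mzds_T_zero T hT hTi
  obtain ⟨c, rfl⟩ := mzh_cls_surjective GQ E x
  rw [mzh_H1resSub_eq_zero_iff] at hx
  obtain ⟨a, ha⟩ := hx
  refine ⟨c, rfl, T a, mzds_T_mem T hT hT0 A a, ?_, fun σ hσ => ?_⟩
  · have h1 : T a * T (-a) = 1 := by rw [← hT, add_neg_cancel, hT0]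
    have h2 : (T a)⁻¹ = T (-a) := inv_eq_of_mul_eq_one_right h1
    rw [h2]
    exact mzds_T_mem T hT hT0 A (-a)
  · rw [ha σ hσ, ← hT, sub_add_cancel, hTe]

end Unit

section Hopf

variable {r : ℕ} {O : Type} [CommRing O] [IsDomain O] [IsDiscreteValuationRing O] [Algebra O Qb]
  {Ar : ValuationSubring Qb}
  {G : Type} [AddCommGroup G] [Finite G] [DistribMulAction GQ G]
  {Q : Type} [AddCommGroup Q] [DistribMulAction GQ Q]
  {E : Type} [AddCommGroup E] [Finite E] [DistribMulAction GQ E]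

/-- **At `r`, `ℤ/r`-leaves** ([HOPF] (OUT-1)): the propagated flat condition is: unramified. -/
theorem mzds_leaf_triv_r (hQuot : mzo_SeamQuot) (hConn : mzo_SeamConn)
    (hctx : mzo_Ctx r O Qb Ar ↥(Ar.inertiaSubgroupIn ℚ)) (hr2 : r ≠ 2)
    {H : Subalgebra O (G → Qb)} (hH : mzo_IsOrder Ar ↥(Ar.inertiaSubgroupIn ℚ) G H)
    (π : G →+ Q) (hπ : Function.Surjective π) (hπe : ∀ (σ : GQ) (g : G), π (σ • g) = σ • π g)
    (ι : E →+ Q) (hι : Function.Injective ι) (hιe : ∀ (σ : GQ) (e : E), ι (σ • e) = σ • ι e)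
    (hcard : Nat.card E = r) (htriv : ∀ (σ : GQ) (e : E), σ • e = e)
    (x : mzh_H1 GQ E) (y : mzh_H1 GQ G) (h : mzh_H1map ι hιe x = mzh_H1map π hπe y)
    (hy : ∀ z : ↥(mzh_Z1 GQ G), mzh_cls GQ G z = y →
      mzo_Flat Ar ↥(Ar.inertiaSubgroupIn ℚ) H (fun σ => (z : GQ → G) σ)) :
    mzh_H1resSub (Ar.inertiaSubgroupIn ℚ) x = 0 := by
  obtain ⟨zE, rfl⟩ := mzh_cls_surjective GQ E x
  obtain ⟨z, rfl⟩ := mzh_cls_surjective GQ G y
  obtain ⟨q₀, hq⟩ := mzds_leaf_rep π hπe ι hιe zE z h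
  rw [mzh_H1resSub_eq_zero_iff]
  refine ⟨0, fun σ hσ => ?_⟩
  have hzc : mzo_IsCocycle (fun σ : ↥(Ar.inertiaSubgroupIn ℚ) => (z : GQ → G) σ) :=
    fun σ τ => z.2 σ τ
  have := mzo_out_triv hQuot hConn hctx hr2 hH hzc (hy z rfl) π hπ
    (fun (σ : ↥(Ar.inertiaSubgroupIn ℚ)) g => hπe σ g) ι hι
    (fun (σ : ↥(Ar.inertiaSubgroupIn ℚ)) e => hιe σ e) hcard
    (fun (σ : ↥(Ar.inertiaSubgroupIn ℚ)) e => htriv σ e)
    (fun σ : ↥(Ar.inertiaSubgroupIn ℚ) => (zE : GQ → E) σ) q₀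
    (fun σ : ↥(Ar.inertiaSubgroupIn ℚ) => hq σ) ⟨σ, hσ⟩
  rw [smul_zero, sub_zero]
  exact this

/-- **At `r`, `μ_r`-leaves** ([HOPF] (OUT-2)): the propagated flat condition is: unit classes. -/
theorem mzds_leaf_mu_r (hQuot : mzo_SeamQuot) (hMuO : mzo_SeamMuOrder) (hMuU : mzo_SeamMuUnit)
    (hctx : mzo_Ctx r O Qb Ar ↥(Ar.inertiaSubgroupIn ℚ)) (hr2 : r ≠ 2)
    {H : Subalgebra O (G → Qb)} (hH : mzo_IsOrder Ar ↥(Ar.inertiaSubgroupIn ℚ) G H)
    (π : G →+ Q) (hπ : Function.Surjective π) (hπe : ∀ (σ : GQ) (g : G), π (σ • g) = σ • π g)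
    (ι : E →+ Q) (hι : Function.Injective ι) (hιe : ∀ (σ : GQ) (e : E), ι (σ • e) = σ • ι e)
    (hcard : Nat.card E = r)
    (T : E → Qb) (hT : ∀ a b : E, T (a + b) = T a * T b) (hTi : Function.Injective T)
    (hTe : ∀ (σ : GQ) (e : E), T (σ • e) = σ (T e))
    (x : mzh_H1 GQ E) (y : mzh_H1 GQ G) (h : mzh_H1map ι hιe x = mzh_H1map π hπe y)
    (hy : ∀ z : ↥(mzh_Z1 GQ G), mzh_cls GQ G z = y →
      mzo_Flat Ar ↥(Ar.inertiaSubgroupIn ℚ) H (fun σ => (z : GQ → G) σ)) :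
    mzds_UnitAt T Ar x := by
  obtain ⟨zE, rfl⟩ := mzh_cls_surjective GQ E x
  obtain ⟨z, rfl⟩ := mzh_cls_surjective GQ G y
  obtain ⟨q₀, hq⟩ := mzds_leaf_rep π hπe ι hιe zE z h
  have hzc : mzo_IsCocycle (fun σ : ↥(Ar.inertiaSubgroupIn ℚ) => (z : GQ → G) σ) :=
    fun σ τ => z.2 σ τ
  have hzEc : mzo_IsCocycle (fun σ : ↥(Ar.inertiaSubgroupIn ℚ) => (zE : GQ → E) σ) :=
    fun σ τ => zE.2 σ τ
  obtain ⟨β, hβ, hβi, hβσ⟩ := mzo_out_mu hQuot hMuO hMuU hctx hr2 hH hzc (hy z rfl) π hπ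
    (fun (σ : ↥(Ar.inertiaSubgroupIn ℚ)) g => hπe σ g) ι hι
    (fun (σ : ↥(Ar.inertiaSubgroupIn ℚ)) e => hιe σ e) hcard T hT hTi
    (fun (σ : ↥(Ar.inertiaSubgroupIn ℚ)) e => hTe σ e)
    (fun σ : ↥(Ar.inertiaSubgroupIn ℚ) => (zE : GQ → E) σ) hzEc q₀
    (fun σ : ↥(Ar.inertiaSubgroupIn ℚ) => hq σ)
  exact ⟨zE, rfl, β, hβ, hβi, fun σ hσ => hβσ ⟨σ, hσ⟩⟩

end Hopf

end Fermat.Agent.MZ
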