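/-
Project MAZUR (S15), node [F-DESC] (helper9), VERSION 2 of the propagation of the local condition
at `r` to a leaf: CLOSED ([HOPF] outputs `mzo_out_triv_closed`, `mzo_out_mu_closed`, `mzo_out_two`
of helper13/helper4/helper3), in helper22's corrected vocabulary (`mzq_UnitAt`: unit `β ≠ 0`), and
with the flat condition stated PER CLASS with its own order and for SOME representative
(`mzds_FlatAt`, as asked by helper15 #3013: [GEO] gives one order per finite set of points).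

* `mzds_FlatAt O Ar y`  : some representative of `y` is flat at `Ar` for some order on `G`;
* `mzds_leaf_triv_flat` : (`r` odd, `ℤ/r`-leaf) the propagated class is unramified at `Ar`;
* `mzds_leaf_mu_flat`   : (`r` odd, `μ_r`-leaf) the propagated class is a unit class at `Ar`;
* `mzds_leaf_two_flat`  : (`r = 2`, any leaf) the propagated class is a unit class at `Ar`;
* `mzds_two_smul`, `mzds_two_char` : a module of order `2` has trivial action and carries the sign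
  character.
Prefix `mzds_`.
-/
import Fermat.Agent.MZ.Desc.Leaf
import Fermat.Agent.MZ.Hopf.Out
import Fermat.Agent.MZ.Hopf.OutTwo
import Fermat.Agent.MZ.Q.Local
import Fermat.Agent.MZ.Q.CycT

set_option autoImplicit false
set_option linter.style.haveILetI false
set_option linter.unusedSectionVars false

noncomputable section

namespace Fermat.Agent.MZ

local notation "Qb" => AlgebraicClosure ℚ
local notation "GQ" => (AlgebraicClosure ℚ ≃ₐ[ℚ] AlgebraicClosure ℚ)

section Flat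

variable (O : Type) [CommRing O] [IsDomain O] [IsDiscreteValuationRing O] [Algebra O Qb]
  (Ar : ValuationSubring Qb)
  {G : Type} [AddCommGroup G] [DistribMulAction GQ G]

/-- **(C4), per class**: SOME representative of the class `y` is, on the inertia group of `Ar`,
flat for SOME order on `G`. -/
def mzds_FlatAt (y : mzh_H1 GQ G) : Prop :=
  ∃ H : Subalgebra O (G → Qb), mzo_IsOrder Ar ↥(Ar.inertiaSubgroupIn ℚ) G H ∧
    ∃ z : ↥(mzh_Z1 GQ G), mzh_cls GQ G z = y ∧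
      mzo_Flat Ar ↥(Ar.inertiaSubgroupIn ℚ) H (fun σ => (z : GQ → G) σ)

end Flat

section Hopf

variable {r : ℕ} {O : Type} [CommRing O] [IsDomain O] [IsDiscreteValuationRing O] [Algebra O Qb]
  {Ar : ValuationSubring Qb}
  {G : Type} [AddCommGroup G] [Finite G] [DistribMulAction GQ G]
  {Q : Type} [AddCommGroup Q] [DistribMulAction GQ Q]
  {E : Type} [AddCommGroup E] [Finite E] [DistribMulAction GQ E]

/-- **At `r` odd, `ℤ/r`-leaves** ([HOPF] (OUT-1), closed): the propagated flat condition is: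
unramified. -/
theorem mzds_leaf_triv_flat (hctx : mzo_Ctx r O Qb Ar ↥(Ar.inertiaSubgroupIn ℚ)) (hr2 : r ≠ 2)
    (π : G →+ Q) (hπ : Function.Surjective π) (hπe : ∀ (σ : GQ) (g : G), π (σ • g) = σ • π g)
    (ι : E →+ Q) (hι : Function.Injective ι) (hιe : ∀ (σ : GQ) (e : E), ι (σ • e) = σ • ι e)
    (hcard : Nat.card E = r) (htriv : ∀ (σ : GQ) (e : E), σ • e = e)
    (x : mzh_H1 GQ E) (y : mzh_H1 GQ G) (h : mzh_H1map ι hιe x = mzh_H1map π hπe y)
    (hy : mzds_FlatAt O Ar y) :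
    mzh_H1resSub (Ar.inertiaSubgroupIn ℚ) x = 0 := by
  obtain ⟨H, hH, z, rfl, hz⟩ := hy
  obtain ⟨zE, rfl⟩ := mzh_cls_surjective GQ E x
  obtain ⟨q₀, hq⟩ := mzds_leaf_rep π hπe ι hιe zE z h
  rw [mzh_H1resSub_eq_zero_iff]
  refine ⟨0, fun σ hσ => ?_⟩
  have hzc : mzo_IsCocycle (fun σ : ↥(Ar.inertiaSubgroupIn ℚ) => (z : GQ → G) σ) :=
    fun σ τ => z.2 σ τ
  have := mzo_out_triv_closed hctx hr2 hH hzc hz π hπ
    (fun (σ : ↥(Ar.inertiaSubgroupIn ℚ)) g => hπe σ g) ι hι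
    (fun (σ : ↥(Ar.inertiaSubgroupIn ℚ)) e => hιe σ e) hcard
    (fun (σ : ↥(Ar.inertiaSubgroupIn ℚ)) e => htriv σ e)
    (fun σ : ↥(Ar.inertiaSubgroupIn ℚ) => (zE : GQ → E) σ) q₀
    (fun σ : ↥(Ar.inertiaSubgroupIn ℚ) => hq σ) ⟨σ, hσ⟩
  rw [smul_zero, sub_zero]
  exact this

/-- **At `r` odd, `μ_r`-leaves** ([HOPF] (OUT-2), closed): the propagated flat condition is: unit
classes. -/
theorem mzds_leaf_mu_flat (hctx : mzo_Ctx r O Qb Ar ↥(Ar.inertiaSubgroupIn ℚ)) (hr2 : r ≠ 2)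
    (π : G →+ Q) (hπ : Function.Surjective π) (hπe : ∀ (σ : GQ) (g : G), π (σ • g) = σ • π g)
    (ι : E →+ Q) (hι : Function.Injective ι) (hιe : ∀ (σ : GQ) (e : E), ι (σ • e) = σ • ι e)
    (hcard : Nat.card E = r)
    (T : E → Qb) (hT : ∀ a b : E, T (a + b) = T a * T b) (hTi : Function.Injective T)
    (hTe : ∀ (σ : GQ) (e : E), T (σ • e) = σ (T e))
    (x : mzh_H1 GQ E) (y : mzh_H1 GQ G) (h : mzh_H1map ι hιe x = mzh_H1map π hπe y)
    (hy : mzds_FlatAt O Ar y) :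
    mzq_UnitAt T Ar x := by
  obtain ⟨H, hH, z, rfl, hz⟩ := hy
  obtain ⟨zE, rfl⟩ := mzh_cls_surjective GQ E x
  obtain ⟨q₀, hq⟩ := mzds_leaf_rep π hπe ι hιe zE z h
  have hzc : mzo_IsCocycle (fun σ : ↥(Ar.inertiaSubgroupIn ℚ) => (z : GQ → G) σ) :=
    fun σ τ => z.2 σ τ
  have hzEc : mzo_IsCocycle (fun σ : ↥(Ar.inertiaSubgroupIn ℚ) => (zE : GQ → E) σ) :=
    fun σ τ => zE.2 σ τ
  obtain ⟨β, hβ, hβi, hβ0, hβσ⟩ := mzo_out_mu_closed hctx hr2 hH hzc hz π hπ
    (fun (σ : ↥(Ar.inertiaSubgroupIn ℚ)) g => hπe σ g) ι hι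
    (fun (σ : ↥(Ar.inertiaSubgroupIn ℚ)) e => hιe σ e) hcard T hT hTi
    (fun (σ : ↥(Ar.inertiaSubgroupIn ℚ)) e => hTe σ e)
    (fun σ : ↥(Ar.inertiaSubgroupIn ℚ) => (zE : GQ → E) σ) hzEc q₀
    (fun σ : ↥(Ar.inertiaSubgroupIn ℚ) => hq σ)
  exact ⟨zE, rfl, β, hβ, hβi, hβ0, fun σ hσ => hβσ ⟨σ, hσ⟩⟩

/-- **At `r = 2`, every leaf** ([HOPF] (OUT-2) at `2`, closed): the propagated flat condition is
inside: unit classes. -/
theorem mzds_leaf_two_flat (hctx : mzo_Ctx 2 O Qb Ar ↥(Ar.inertiaSubgroupIn ℚ))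
    (π : G →+ Q) (hπ : Function.Surjective π) (hπe : ∀ (σ : GQ) (g : G), π (σ • g) = σ • π g)
    (ι : E →+ Q) (hι : Function.Injective ι) (hιe : ∀ (σ : GQ) (e : E), ι (σ • e) = σ • ι e)
    (hcard : Nat.card E = 2)
    (T : E → Qb) (hT : ∀ a b : E, T (a + b) = T a * T b) (hTi : Function.Injective T)
    (x : mzh_H1 GQ E) (y : mzh_H1 GQ G) (h : mzh_H1map ι hιe x = mzh_H1map π hπe y)
    (hy : mzds_FlatAt O Ar y) :
    mzq_UnitAt T Ar x := by
  obtain ⟨H, hH, z, rfl, hz⟩ := hy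
  obtain ⟨zE, rfl⟩ := mzh_cls_surjective GQ E x
  obtain ⟨q₀, hq⟩ := mzds_leaf_rep π hπe ι hιe zE z h
  have hzc : mzo_IsCocycle (fun σ : ↥(Ar.inertiaSubgroupIn ℚ) => (z : GQ → G) σ) :=
    fun σ τ => z.2 σ τ
  have hzEc : mzo_IsCocycle (fun σ : ↥(Ar.inertiaSubgroupIn ℚ) => (zE : GQ → E) σ) :=
    fun σ τ => zE.2 σ τ
  obtain ⟨β, hβ, hβi, hβ0, hβσ⟩ := mzo_out_two hctx hH hzc hz π hπ
    (fun (σ : ↥(Ar.inertiaSubgroupIn ℚ)) g => hπe σ g) ι hι
    (fun (σ : ↥(Ar.inertiaSubgroupIn ℚ)) e => hιe σ e) hcard T hT hTi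
    (fun σ : ↥(Ar.inertiaSubgroupIn ℚ) => (zE : GQ → E) σ) hzEc q₀
    (fun σ : ↥(Ar.inertiaSubgroupIn ℚ) => hq σ)
  exact ⟨zE, rfl, β, hβ, hβi, hβ0, fun σ hσ => hβσ ⟨σ, hσ⟩⟩

end Hopf

section Two

variable {Γ : Type*} [Group Γ] {E : Type*} [AddCommGroup E] [DistribMulAction Γ E]

/-- Every action on a group of order `2` is trivial. -/
theorem mzds_two_smul (hcard : Nat.card E = 2) (σ : Γ) (e : E) : σ • e = e := by
  haveI : Finite E := Nat.finite_of_card_ne_zero (by rw [hcard]; norm_num)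
  by_cases he : e = 0
  · rw [he, smul_zero]
  · by_contra hne
    have h0 : σ • e ≠ 0 := by
      intro h
      apply he
      have : σ⁻¹ • (σ • e) = σ⁻¹ • (0 : E) := by rw [h]
      rwa [inv_smul_smul, smul_zero] at this
    -- three distinct elements `0, e, σ • e`
    have h3 : 3 ≤ Nat.card E := by
      classical
      haveI := Fintype.ofFinite E
      rw [Nat.card_eq_fintype_card]
      have hsub : ({0, e, σ • e} : Finset E) ⊆ Finset.univ := Finset.subset_univ _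
      have hc : ({0, e, σ • e} : Finset E).card = 3 := by
        rw [Finset.card_insert_of_notMem, Finset.card_insert_of_notMem, Finset.card_singleton]
        · simpa using Ne.symm hne
        · simp only [Finset.mem_insert, Finset.mem_singleton, not_or]
          exact ⟨Ne.symm he, Ne.symm h0⟩
      calc 3 = ({0, e, σ • e} : Finset E).card := hc.symm
        _ ≤ Finset.univ.card := Finset.card_le_card hsub
        _ = Fintype.card E := Finset.card_univ
    rw [hcard] at h3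
    norm_num at h3

end Two

section TwoChar

variable {E : Type*} [AddCommGroup E] [DistribMulAction GQ E]

/-- **The sign character** of a `GQ`-module of order `2`. -/
theorem mzds_two_char (hcard : Nat.card E = 2) :
    ∃ T : E → Qb, T 0 = 1 ∧ (∀ a b : E, T (a + b) = T a * T b) ∧ Function.Injective T ∧
      (∀ (σ : GQ) (e : E), T (σ • e) = σ (T e)) ∧ ∀ e : E, T e ^ 2 = 1 := by
  have hprim : IsPrimitiveRoot (-1 : Qb) 2 := IsPrimitiveRoot.neg_one 0 (by norm_num)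
  obtain ⟨T, h0, hadd, hinj, heq, hpow⟩ :=
    mzq_ct_general (G := GQ) (K := Qb) Nat.prime_two hprim (fun _ => 1)
      (fun σ => by rw [pow_one, smul_neg, smul_one]) hcard
      (fun σ e => by rw [one_smul]; exact mzds_two_smul hcard σ e)
  exact ⟨T, h0, hadd, hinj, fun σ e => heq σ e, hpow⟩

end TwoChar

end Fermat.Agent.MZ
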