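/-
Project MAZUR (S15), node [F-DESC] (helper9), VERSION 2: THE THREE LEAF BOUNDS of the descent with
the two local subgroups `I_p` (inertia at `p`) and `⟨c⟩` (`c` a complex conjugation), CLOSED:
(F6) = `mzq_ch_leaf_triv_seam` (helper11), `mzq_mu_leaf`, `mzq_mu_leaf_real` (helper22),
`mzq_ct_exists` (helper29); [HOPF] = `MZ/Desc/Leaf2.lean`.

Setting: `GQ`-modules `G` (top), `Q` (a quotient of `G`, `π : G → Q`), `E` (a leaf, `ι : E → Q`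
injective) with `|E| = r`; `L ≤ H¹(GQ, G)` a subgroup of continuous classes, unramified outside
`p r`, flat at `r`; `S_E := ι_*⁻¹ (π_* L)` the propagated Selmer group.  Then `mzds_LeafOK`:
`S_E` is finite and for all `k₁ k₂` (`k = 1` and `S_E` trivial on the subgroup: GOOD; `r ≤ k`: BAD)
  `|S_E| · |E^{I_p}| · |E^{⟨c⟩}| ≤ |E^{GQ}| · |E| · k₁ · k₂`.
* `mzds_leaf_ok_triv` (`r ≠ 2`, `GQ` acts trivially on `E`);
* `mzds_leaf_ok_mu`   (`r ≠ 2`, `GQ` acts through the cyclotomic character on `E`);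
* `mzds_leaf_ok_two`  (`r = 2`).
Prefix `mzds_`.
-/
import Fermat.Agent.MZ.Desc.Leaf2
import Fermat.Agent.MZ.Q.LeafTrivSeam
import Fermat.Agent.MZ.Q.MuReal

set_option autoImplicit false
set_option linter.style.haveILetI false
set_option linter.unusedSectionVars false

noncomputable section

namespace Fermat.Agent.MZ

local notation "Qb" => AlgebraicClosure ℚ
local notation "GQ" => (AlgebraicClosure ℚ ≃ₐ[ℚ] AlgebraicClosure ℚ)

section Shape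

variable {Γ : Type*} [Group Γ] {E : Type*} [AddCommGroup E] [DistribMulAction Γ E]

/-- The leaf inequality of the two-subgroup descent (weight `1`). -/
def mzds_LeafOK (r : ℕ) (I₁ I₂ : Subgroup Γ) (S : AddSubgroup (mzh_H1 Γ E)) : Prop :=
  Finite ↥S ∧ ∀ k₁ k₂ : ℕ,
    ((k₁ = 1 ∧ S ≤ (mzh_H1resSub I₁).ker) ∨ r ≤ k₁) →
    ((k₂ = 1 ∧ S ≤ (mzh_H1resSub I₂).ker) ∨ r ≤ k₂) →
    Nat.card ↥S * 1 * Nat.card ↥(mzh_H0 ↥I₁ E) * Nat.card ↥(mzh_H0 ↥I₂ E) ≤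
      Nat.card ↥(mzh_H0 Γ E) * Nat.card E * k₁ * k₂

/-- Invariants of a trivial action. -/
theorem mzds_card_H0_of_triv {Γ' : Type*} [Group Γ'] [DistribMulAction Γ' E]
    (h : ∀ (σ : Γ') (e : E), σ • e = e) : Nat.card ↥(mzh_H0 Γ' E) = Nat.card E := by
  have htop : mzh_H0 Γ' E = ⊤ := by
    ext e
    simp only [AddSubgroup.mem_top, iff_true]
    exact fun σ => h σ e
  rw [htop, AddSubgroup.card_top]

theorem mzds_card_H0_le [Finite E] {Γ' : Type*} [Group Γ'] [DistribMulAction Γ' E] :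
    Nat.card ↥(mzh_H0 Γ' E) ≤ Nat.card E :=
  Nat.card_le_card_of_injective _ Subtype.coe_injective

end Shape

section Conj

variable {E : Type*} [AddCommGroup E] [DistribMulAction GQ E]

/-- A complex conjugation inverts roots of unity. -/
theorem mzds_conj_root (ι : Qb →+* ℂ) (c : GQ) (hc : ∀ z : Qb, ι (c z) = starRingEnd ℂ (ι z))
    {n : ℕ} (hn : n ≠ 0) {u : Qb} (hu : u ^ n = 1) : c u = u⁻¹ := by
  apply ι.injective
  rw [hc, map_inv₀]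
  have h1 : (ι u) ^ n = 1 := by rw [← map_pow, hu, map_one]
  have h2 : ‖ι u‖ = 1 := Complex.norm_eq_one_of_pow_eq_one h1 hn
  exact (Complex.inv_eq_conj h2).symm

/-- On a module of `μ_r`-type (`r` odd) a complex conjugation has no nonzero fixed vector. -/
theorem mzds_card_H0_conj_mu {r : ℕ} (hr : r.Prime) (hr2 : r ≠ 2) (hcard : Nat.card E = r)
    (T : E → Qb) (hT0 : T 0 = 1) (hT : ∀ a b : E, T (a + b) = T a * T b)
    (hTi : Function.Injective T) (hTe : ∀ (σ : GQ) (e : E), T (σ • e) = σ (T e))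
    (hTr : ∀ e : E, T e ^ r = 1)
    (ι : Qb →+* ℂ) (c : GQ) (hc : ∀ z : Qb, ι (c z) = starRingEnd ℂ (ι z)) :
    Nat.card ↥(mzh_H0 ↥(Subgroup.zpowers c) E) = 1 := by
  haveI : Finite E := Nat.finite_of_card_ne_zero (by rw [hcard]; exact hr.ne_zero)
  have hbot : mzh_H0 ↥(Subgroup.zpowers c) E = ⊥ := by
    rw [eq_bot_iff]
    intro e he
    rw [AddSubgroup.mem_bot]
    have h1 : c • e = e := he ⟨c, Subgroup.mem_zpowers c⟩
    have h2 : T (c • e) = T (-e) := by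
      rw [hTe, mzds_conj_root ι c hc hr.ne_zero (hTr e)]
      have h3 : T e * T (-e) = 1 := by rw [← hT, add_neg_cancel, hT0]
      exact inv_eq_of_mul_eq_one_right h3
    have h4 : e = -e := by
      have := hTi h2
      rwa [h1] at this
    have h5 : 2 • e = 0 := by
      rw [two_nsmul]
      nth_rewrite 2 [h4]
      exact add_neg_cancel e
    have h6 : addOrderOf e ∣ 2 := addOrderOf_dvd_of_nsmul_eq_zero h5
    have h7 : addOrderOf e ∣ r := by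
      rw [← hcard]
      exact addOrderOf_dvd_natCard e
    have h8 : addOrderOf e ∣ Nat.gcd 2 r := Nat.dvd_gcd h6 h7
    have h9 : Nat.gcd 2 r = 1 := by
      rw [Nat.gcd_comm]
      exact (Nat.coprime_primes hr Nat.prime_two).mpr hr2
    rw [h9, Nat.dvd_one] at h8
    exact AddMonoid.addOrderOf_eq_one_iff.mp h8
  rw [hbot]
  exact Nat.card_unique

end Conj

section

variable {p r : ℕ} {Ap Ar : ValuationSubring Qb}
  {O : Type} [CommRing O] [IsDomain O] [IsDiscreteValuationRing O] [Algebra O Qb]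
  {G : Type} [AddCommGroup G] [Finite G] [DistribMulAction GQ G]
  {Q : Type} [AddCommGroup Q] [DistribMulAction GQ Q]
  {E : Type} [AddCommGroup E] [DistribMulAction GQ E]

/-- The conditions propagated to the leaf from `L`: continuity. -/
theorem mzds_leaf_contq
    (hopen : ∀ g : G, ∃ K : IntermediateField ℚ Qb, FiniteDimensional ℚ K ∧
      ∀ σ ∈ K.fixingSubgroup, σ • g = g)
    (π : G →+ Q) (hπ : Function.Surjective π) (hπe : ∀ (σ : GQ) (g : G), π (σ • g) = σ • π g)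
    (ι : E →+ Q) (hι : Function.Injective ι) (hιe : ∀ (σ : GQ) (e : E), ι (σ • e) = σ • ι e)
    (x : mzh_H1 GQ E) (y : mzh_H1 GQ G) (h : mzh_H1map ι hιe x = mzh_H1map π hπe y)
    (hy : mzq_Cont y) : mzq_Cont x :=
  mzds_leaf_cont π hπ hπe ι hι hιe hopen x y h hy

/-- **The `ℤ/r`-leaf** (`r` odd). -/
theorem mzds_leaf_ok_triv (hp : p.Prime) (hr : r.Prime) (hr2 : r ≠ 2) (hrp : r ≠ p)
    (hAp : Ap.LiesOverPrime p) (hAr : Ar.LiesOverPrime r) (I₂ : Subgroup GQ)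
    (hctx : mzo_Ctx r O Qb Ar ↥(Ar.inertiaSubgroupIn ℚ))
    (hopen : ∀ g : G, ∃ K : IntermediateField ℚ Qb, FiniteDimensional ℚ K ∧
      ∀ σ ∈ K.fixingSubgroup, σ • g = g)
    (L : AddSubgroup (mzh_H1 GQ G))
    (hL1 : ∀ x ∈ L, mzq_Cont x)
    (hL2 : ∀ ℓ : ℕ, ℓ.Prime → ℓ ≠ p → ℓ ≠ r → ∃ A : ValuationSubring Qb, A.LiesOverPrime ℓ ∧
      (∀ σ ∈ A.inertiaSubgroupIn ℚ, ∀ g : G, σ • g = g) ∧
      ∀ x ∈ L, mzh_H1resSub (A.inertiaSubgroupIn ℚ) x = 0)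
    (hL4 : ∀ x ∈ L, mzds_FlatAt O Ar x)
    (π : G →+ Q) (hπ : Function.Surjective π) (hπe : ∀ (σ : GQ) (g : G), π (σ • g) = σ • π g)
    (ι : E →+ Q) (hι : Function.Injective ι) (hιe : ∀ (σ : GQ) (e : E), ι (σ • e) = σ • ι e)
    (hcard : Nat.card E = r) (htriv : ∀ (σ : GQ) (e : E), σ • e = e) :
    mzds_LeafOK r (Ap.inertiaSubgroupIn ℚ) I₂
      ((L.map (mzh_H1map π hπe)).comap (mzh_H1map ι hιe)) := by
  haveI hfinE : Finite E := Nat.finite_of_card_ne_zero (by rw [hcard]; exact hr.ne_zero)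
  set SW := (L.map (mzh_H1map π hπe)).comap (mzh_H1map ι hιe) with hSW
  have hxy : ∀ x ∈ SW, ∃ y ∈ L, mzh_H1map ι hιe x = mzh_H1map π hπe y := by
    intro x hx
    obtain ⟨y, hy, hyx⟩ := hx
    exact ⟨y, hy, hyx.symm⟩
  have hcond : ∀ x ∈ SW,
      (∃ c : ↥(mzh_Z1 GQ E), mzh_cls GQ E c = x ∧ ∃ K : IntermediateField ℚ Qb,
        FiniteDimensional ℚ K ∧ ∀ σ ∈ K.fixingSubgroup, (c : GQ → E) σ = 0) ∧
      ∀ ℓ : ℕ, ℓ.Prime → ℓ ≠ p → ∃ A : ValuationSubring Qb, A.LiesOverPrime ℓ ∧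
        mzh_H1resSub (A.inertiaSubgroupIn ℚ) x = 0 := by
    intro x hx
    obtain ⟨y, hy, h⟩ := hxy x hx
    refine ⟨mzds_leaf_contq hopen π hπ hπe ι hι hιe x y h (hL1 y hy), fun ℓ hℓ hℓp => ?_⟩
    by_cases hℓr : ℓ = r
    · exact ⟨Ar, hℓr ▸ hAr, mzds_leaf_triv_flat hctx hr2 π hπ hπe ι hι hιe hcard
        htriv x y h (hL4 y hy)⟩
    · obtain ⟨A, hA, hAW, hAL⟩ := hL2 ℓ hℓ hℓp hℓr
      exact ⟨A, hA, mzds_leaf_unram π hπ hπe ι hι hιe _ hAW x y h (hAL y hy)⟩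
  obtain ⟨hfinS, hleS, hgoodS⟩ :=
    mzq_ch_leaf_triv_seam p r htriv hp hr hrp hcard Ap hAp SW hcond
  refine ⟨hfinS, fun k₁ k₂ h₁ h₂ => ?_⟩
  have e1 : Nat.card ↥(mzh_H0 ↥(Ap.inertiaSubgroupIn ℚ) E) = r := by
    rw [mzds_card_H0_of_triv (fun (σ : ↥(Ap.inertiaSubgroupIn ℚ)) e => htriv σ e), hcard]
  have e2 : Nat.card ↥(mzh_H0 ↥I₂ E) = r := by
    rw [mzds_card_H0_of_triv (fun (σ : ↥I₂) e => htriv σ e), hcard]
  have e3 : Nat.card ↥(mzh_H0 GQ E) = r := by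
    rw [mzds_card_H0_of_triv htriv, hcard]
  rw [e1, e2, e3, hcard, mul_one]
  have hk₂ : 1 ≤ k₂ := by
    rcases h₂ with ⟨h, -⟩ | h
    · exact h.ge
    · exact hr.one_lt.le.trans h
  have hS : Nat.card ↥SW ≤ k₁ := by
    rcases h₁ with ⟨h1, hg⟩ | h
    · rw [h1]
      exact hgoodS (fun x hx => (AddMonoidHom.mem_ker).mp (hg hx))
    · exact hleS.trans h
  calc Nat.card ↥SW * r * r ≤ k₁ * r * r :=
        Nat.mul_le_mul_right _ (Nat.mul_le_mul_right _ hS)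
    _ = r * r * k₁ * 1 := by ring
    _ ≤ r * r * k₁ * k₂ := Nat.mul_le_mul_left _ hk₂

/-- **The `μ_r`-leaf** (`r` odd). -/
theorem mzds_leaf_ok_mu (hp : p.Prime) (hr : r.Prime) (hr2 : r ≠ 2) [NeZero r]
    (hAp : Ap.LiesOverPrime p) (hAr : Ar.LiesOverPrime r)
    (ι' : Qb →+* ℂ) (c : GQ) (hc : ∀ z : Qb, ι' (c z) = starRingEnd ℂ (ι' z))
    (hctx : mzo_Ctx r O Qb Ar ↥(Ar.inertiaSubgroupIn ℚ))
    (hopen : ∀ g : G, ∃ K : IntermediateField ℚ Qb, FiniteDimensional ℚ K ∧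
      ∀ σ ∈ K.fixingSubgroup, σ • g = g)
    (L : AddSubgroup (mzh_H1 GQ G))
    (hL1 : ∀ x ∈ L, mzq_Cont x)
    (hL2 : ∀ ℓ : ℕ, ℓ.Prime → ℓ ≠ p → ℓ ≠ r → ∃ A : ValuationSubring Qb, A.LiesOverPrime ℓ ∧
      (∀ σ ∈ A.inertiaSubgroupIn ℚ, ∀ g : G, σ • g = g) ∧
      ∀ x ∈ L, mzh_H1resSub (A.inertiaSubgroupIn ℚ) x = 0)
    (hL4 : ∀ x ∈ L, mzds_FlatAt O Ar x)
    (π : G →+ Q) (hπ : Function.Surjective π) (hπe : ∀ (σ : GQ) (g : G), π (σ • g) = σ • π g)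
    (ι : E →+ Q) (hι : Function.Injective ι) (hιe : ∀ (σ : GQ) (e : E), ι (σ • e) = σ • ι e)
    (hcard : Nat.card E = r)
    (hmu : ∀ (σ : GQ) (e : E), σ • e = ((Fermat.Agent.DS.dspk_cyc r σ : (ZMod r)ˣ) : ZMod r).val • e) :
    mzds_LeafOK r (Ap.inertiaSubgroupIn ℚ) (Subgroup.zpowers c)
      ((L.map (mzh_H1map π hπe)).comap (mzh_H1map ι hιe)) := by
  haveI hfinE : Finite E := Nat.finite_of_card_ne_zero (by rw [hcard]; exact hr.ne_zero)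
  set SW := (L.map (mzh_H1map π hπe)).comap (mzh_H1map ι hιe) with hSW
  obtain ⟨T, hT0, hT, hTi, hTe, hTr⟩ := mzq_ct_exists hr hcard hmu
  have hxy : ∀ x ∈ SW, ∃ y ∈ L, mzh_H1map ι hιe x = mzh_H1map π hπe y := by
    intro x hx
    obtain ⟨y, hy, hyx⟩ := hx
    exact ⟨y, hy, hyx.symm⟩
  have hcond : ∀ x ∈ SW, mzq_Cont x ∧ ∀ ℓ : ℕ, ℓ.Prime → ℓ ≠ p →
      ∃ A : ValuationSubring Qb, A.LiesOverPrime ℓ ∧ mzq_UnitAt T A x := by
    intro x hx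
    obtain ⟨y, hy, h⟩ := hxy x hx
    refine ⟨mzds_leaf_contq hopen π hπ hπe ι hι hιe x y h (hL1 y hy), fun ℓ hℓ hℓp => ?_⟩
    by_cases hℓr : ℓ = r
    · exact ⟨Ar, hℓr ▸ hAr, mzds_leaf_mu_flat hctx hr2 π hπ hπe ι hι hιe hcard
        T hT hTi hTe x y h (hL4 y hy)⟩
    · obtain ⟨A, hA, hAW, hAL⟩ := hL2 ℓ hℓ hℓp hℓr
      exact ⟨A, hA, mzq_unitAt_of_unram T hT0 hT hTe A x
        (mzds_leaf_unram π hπ hπe ι hι hιe _ hAW x y h (hAL y hy))⟩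
  obtain ⟨hfinS, hleS, hgoodS⟩ := mzq_mu_leaf T hT0 hT hTe p r hp hr hcard hTi SW hcond
  refine ⟨hfinS, fun k₁ k₂ h₁ h₂ => ?_⟩
  have e2 : Nat.card ↥(mzh_H0 ↥(Subgroup.zpowers c) E) = 1 :=
    mzds_card_H0_conj_mu hr hr2 hcard T hT0 hT hTi hTe hTr ι' c hc
  have hcI : Nat.card ↥(mzh_H0 ↥(Ap.inertiaSubgroupIn ℚ) E) ≤ r := by
    rw [← hcard]
    exact mzds_card_H0_le
  rw [e2, hcard, mul_one, mul_one]
  have hk₂ : 1 ≤ k₂ := by
    rcases h₂ with ⟨h, -⟩ | h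
    · exact h.ge
    · exact hr.one_lt.le.trans h
  have hS : Nat.card ↥SW ≤ Nat.card ↥(mzh_H0 GQ E) * k₁ := by
    rcases h₁ with ⟨h1, hg⟩ | h
    · rw [h1, mul_one]
      exact hgoodS (fun x hx => ⟨Ap, hAp, mzq_unitAt_of_unram T hT0 hT hTe Ap x
        ((AddMonoidHom.mem_ker).mp (hg hx))⟩)
    · calc Nat.card ↥SW ≤ r * Nat.card ↥(mzh_H0 GQ E) := hleS
        _ = Nat.card ↥(mzh_H0 GQ E) * r := mul_comm _ _
        _ ≤ Nat.card ↥(mzh_H0 GQ E) * k₁ := Nat.mul_le_mul_left _ h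
  calc Nat.card ↥SW * Nat.card ↥(mzh_H0 ↥(Ap.inertiaSubgroupIn ℚ) E)
      ≤ (Nat.card ↥(mzh_H0 GQ E) * k₁) * r := Nat.mul_le_mul hS hcI
    _ = Nat.card ↥(mzh_H0 GQ E) * r * k₁ * 1 := by ring
    _ ≤ Nat.card ↥(mzh_H0 GQ E) * r * k₁ * k₂ := Nat.mul_le_mul_left _ hk₂

/-- **The leaf at `r = 2`** (helper4's table #2971: `|S_E| ≤ 2 ^ ([bad_p] + [bad_∞])`). -/
theorem mzds_leaf_ok_two (hp : p.Prime) (hAp : Ap.LiesOverPrime p) (hAr : Ar.LiesOverPrime 2)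
    (ι' : Qb →+* ℂ) (c : GQ) (hc : ∀ z : Qb, ι' (c z) = starRingEnd ℂ (ι' z))
    (hctx : mzo_Ctx 2 O Qb Ar ↥(Ar.inertiaSubgroupIn ℚ))
    (hopen : ∀ g : G, ∃ K : IntermediateField ℚ Qb, FiniteDimensional ℚ K ∧
      ∀ σ ∈ K.fixingSubgroup, σ • g = g)
    (L : AddSubgroup (mzh_H1 GQ G))
    (hL1 : ∀ x ∈ L, mzq_Cont x)
    (hL2 : ∀ ℓ : ℕ, ℓ.Prime → ℓ ≠ p → ℓ ≠ 2 → ∃ A : ValuationSubring Qb, A.LiesOverPrime ℓ ∧
      (∀ σ ∈ A.inertiaSubgroupIn ℚ, ∀ g : G, σ • g = g) ∧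
      ∀ x ∈ L, mzh_H1resSub (A.inertiaSubgroupIn ℚ) x = 0)
    (hL4 : ∀ x ∈ L, mzds_FlatAt O Ar x)
    (π : G →+ Q) (hπ : Function.Surjective π) (hπe : ∀ (σ : GQ) (g : G), π (σ • g) = σ • π g)
    (ι : E →+ Q) (hι : Function.Injective ι) (hιe : ∀ (σ : GQ) (e : E), ι (σ • e) = σ • ι e)
    (hcard : Nat.card E = 2) :
    mzds_LeafOK 2 (Ap.inertiaSubgroupIn ℚ) (Subgroup.zpowers c)
      ((L.map (mzh_H1map π hπe)).comap (mzh_H1map ι hιe)) := by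
  haveI hfinE : Finite E := Nat.finite_of_card_ne_zero (by rw [hcard]; norm_num)
  set SW := (L.map (mzh_H1map π hπe)).comap (mzh_H1map ι hιe) with hSW
  obtain ⟨T, hT0, hT, hTi, hTe, -⟩ := mzds_two_char (E := E) hcard
  have hxy : ∀ x ∈ SW, ∃ y ∈ L, mzh_H1map ι hιe x = mzh_H1map π hπe y := by
    intro x hx
    obtain ⟨y, hy, hyx⟩ := hx
    exact ⟨y, hy, hyx.symm⟩
  have hcond : ∀ x ∈ SW, mzq_Cont x ∧ ∀ ℓ : ℕ, ℓ.Prime → ℓ ≠ p →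
      ∃ A : ValuationSubring Qb, A.LiesOverPrime ℓ ∧ mzq_UnitAt T A x := by
    intro x hx
    obtain ⟨y, hy, h⟩ := hxy x hx
    refine ⟨mzds_leaf_contq hopen π hπ hπe ι hι hιe x y h (hL1 y hy), fun ℓ hℓ hℓp => ?_⟩
    by_cases hℓr : ℓ = 2
    · exact ⟨Ar, hℓr ▸ hAr, mzds_leaf_two_flat hctx π hπ hπe ι hι hιe hcard
        T hT hTi x y h (hL4 y hy)⟩
    · obtain ⟨A, hA, hAW, hAL⟩ := hL2 ℓ hℓ hℓp hℓr
      exact ⟨A, hA, mzq_unitAt_of_unram T hT0 hT hTe A x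
        (mzds_leaf_unram π hπ hπe ι hι hιe _ hAW x y h (hAL y hy))⟩
  obtain ⟨hfinS, hleS, hgoodS⟩ :=
    mzq_mu_leaf T hT0 hT hTe p 2 hp Nat.prime_two hcard hTi SW hcond
  refine ⟨hfinS, fun k₁ k₂ h₁ h₂ => ?_⟩
  have htriv : ∀ (σ : GQ) (e : E), σ • e = e := fun σ e => mzds_two_smul hcard σ e
  have e1 : Nat.card ↥(mzh_H0 ↥(Ap.inertiaSubgroupIn ℚ) E) = 2 := by
    rw [mzds_card_H0_of_triv (fun (σ : ↥(Ap.inertiaSubgroupIn ℚ)) e => htriv σ e), hcard]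
  have e2 : Nat.card ↥(mzh_H0 ↥(Subgroup.zpowers c) E) = 2 := by
    rw [mzds_card_H0_of_triv (fun (σ : ↥(Subgroup.zpowers c)) e => htriv σ e), hcard]
  have e3 : Nat.card ↥(mzh_H0 GQ E) = 2 := by
    rw [mzds_card_H0_of_triv htriv, hcard]
  rw [e3] at hleS hgoodS
  have hunitp : SW ≤ (mzh_H1resSub (Ap.inertiaSubgroupIn ℚ)).ker →
      ∀ x ∈ SW, ∃ A : ValuationSubring Qb, A.LiesOverPrime p ∧ mzq_UnitAt T A x :=
    fun hg x hx => ⟨Ap, hAp, mzq_unitAt_of_unram T hT0 hT hTe Ap x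
      ((AddMonoidHom.mem_ker).mp (hg hx))⟩
  have hS : Nat.card ↥SW ≤ k₁ * k₂ := by
    rcases h₁ with ⟨h1, hg₁⟩ | h1 <;> rcases h₂ with ⟨h2, hg₂⟩ | h2
    · obtain ⟨-, -, hgoodR⟩ := mzq_mu_leaf_real T hT0 hT hTe p 2 hp Nat.prime_two hcard hTi
        ι' c hc SW hcond (fun x hx => (AddMonoidHom.mem_ker).mp (hg₂ hx))
      rw [h1, h2]
      exact hgoodR (hunitp hg₁)
    · rw [h1, one_mul]
      exact (hgoodS (hunitp hg₁)).trans h2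
    · obtain ⟨-, hleR, -⟩ := mzq_mu_leaf_real T hT0 hT hTe p 2 hp Nat.prime_two hcard hTi
        ι' c hc SW hcond (fun x hx => (AddMonoidHom.mem_ker).mp (hg₂ hx))
      rw [h2, mul_one]
      exact hleR.trans h1
    · exact hleS.trans (Nat.mul_le_mul h1 h2)
  rw [e1, e2, e3, hcard, mul_one]
  calc Nat.card ↥SW * 2 * 2 ≤ (k₁ * k₂) * 2 * 2 :=
        Nat.mul_le_mul_right _ (Nat.mul_le_mul_right _ hS)
    _ = 2 * 2 * k₁ * k₂ := by ring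

end

end Fermat.Agent.MZ
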