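/-
Project MAZUR (S15), node [F-DESC] (helper9): THE TWO LEAF BOUNDS of the descent, abstractly.

Setting: `GQ`-modules `G` (top), `Q` (a quotient of `G`, `π : G → Q`), `E` (a leaf, `ι : E → Q`
injective) with `|E| = r`; `L ≤ H¹(GQ, G)` a subgroup of continuous classes, unramified outside
`p r`, flat at `r` for an order `H` on `G`; `S_E := ι_*⁻¹ (π_* L)` the propagated Selmer group.
* `mzds_leaf_bound_triv` (`GQ` acts trivially on `E`, weight `r`);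
* `mzds_leaf_bound_mu`   (`GQ` acts through `cyc` on `E`, weight `1`):
`S_E` is finite and satisfies the GOOD and the BAD inequality of `mzh_HasStepMod`.
Prefix `mzds_`.
-/
import Fermat.Agent.MZ.Desc.Leaf

set_option autoImplicit false
set_option linter.style.haveILetI false
set_option linter.unusedSectionVars false

noncomputable section

namespace Fermat.Agent.MZ

local notation "Qb" => AlgebraicClosure ℚ
local notation "GQ" => (AlgebraicClosure ℚ ≃ₐ[ℚ] AlgebraicClosure ℚ)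

section

variable {p r : ℕ} {Ap Ar : ValuationSubring Qb}
  {O : Type} [CommRing O] [IsDomain O] [IsDiscreteValuationRing O] [Algebra O Qb]
  {G : Type} [AddCommGroup G] [Finite G] [DistribMulAction GQ G]
  {Q : Type} [AddCommGroup Q] [DistribMulAction GQ Q]
  {E : Type} [AddCommGroup E] [DistribMulAction GQ E]

/-- **The `ℤ/r`-leaf.** -/
theorem mzds_leaf_bound_triv (hr : r.Prime) (hr2 : r ≠ 2) (hAr : Ar.LiesOverPrime r)
    (hTriv : mzds_SeamTriv p r Ap) (hQuot : mzo_SeamQuot) (hConn : mzo_SeamConn)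
    (hctx : mzo_Ctx r O Qb Ar ↥(Ar.inertiaSubgroupIn ℚ))
    {H : Subalgebra O (G → Qb)} (hH : mzo_IsOrder Ar ↥(Ar.inertiaSubgroupIn ℚ) G H)
    (hopen : ∀ g : G, ∃ K : IntermediateField ℚ Qb, FiniteDimensional ℚ K ∧
      ∀ σ ∈ K.fixingSubgroup, σ • g = g)
    (L : AddSubgroup (mzh_H1 GQ G))
    (hL1 : ∀ x ∈ L, mzds_Cont x)
    (hL2 : ∀ ℓ : ℕ, ℓ.Prime → ℓ ≠ p → ℓ ≠ r → ∃ A : ValuationSubring Qb, A.LiesOverPrime ℓ ∧
      (∀ σ ∈ A.inertiaSubgroupIn ℚ, ∀ g : G, σ • g = g) ∧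
      ∀ x ∈ L, mzh_H1resSub (A.inertiaSubgroupIn ℚ) x = 0)
    (hL4 : ∀ x ∈ L, ∀ z : ↥(mzh_Z1 GQ G), mzh_cls GQ G z = x →
      mzo_Flat Ar ↥(Ar.inertiaSubgroupIn ℚ) H (fun σ => (z : GQ → G) σ))
    (π : G →+ Q) (hπ : Function.Surjective π) (hπe : ∀ (σ : GQ) (g : G), π (σ • g) = σ • π g)
    (ι : E →+ Q) (hι : Function.Injective ι) (hιe : ∀ (σ : GQ) (e : E), ι (σ • e) = σ • ι e)
    (hcard : Nat.card E = r) (htriv : ∀ (σ : GQ) (e : E), σ • e = e) :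
    Finite ↥((L.map (mzh_H1map π hπe)).comap (mzh_H1map ι hιe)) ∧
      ((L.map (mzh_H1map π hπe)).comap (mzh_H1map ι hιe) ≤
          (mzh_H1resSub (Ap.inertiaSubgroupIn ℚ)).ker →
        Nat.card ↥((L.map (mzh_H1map π hπe)).comap (mzh_H1map ι hιe)) * r *
            Nat.card ↥(mzh_H0 ↥(Ap.inertiaSubgroupIn ℚ) E) ≤
          Nat.card ↥(mzh_H0 GQ E) * Nat.card E) ∧
      Nat.card ↥((L.map (mzh_H1map π hπe)).comap (mzh_H1map ι hιe)) * r *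
          Nat.card ↥(mzh_H0 ↥(Ap.inertiaSubgroupIn ℚ) E) ≤
        Nat.card ↥(mzh_H0 GQ E) * Nat.card E * r := by
  haveI hfinE : Finite E := Nat.finite_of_card_ne_zero (by rw [hcard]; exact hr.ne_zero)
  set SW := (L.map (mzh_H1map π hπe)).comap (mzh_H1map ι hιe) with hSW
  have hxy : ∀ x ∈ SW, ∃ y ∈ L, mzh_H1map ι hιe x = mzh_H1map π hπe y := by
    intro x hx
    obtain ⟨y, hy, hyx⟩ := hx
    exact ⟨y, hy, hyx.symm⟩
  have hcond : ∀ x ∈ SW, mzds_Cont x ∧ ∀ ℓ : ℕ, ℓ.Prime → ℓ ≠ p →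
      ∃ A : ValuationSubring Qb, A.LiesOverPrime ℓ ∧
        mzh_H1resSub (A.inertiaSubgroupIn ℚ) x = 0 := by
    intro x hx
    obtain ⟨y, hy, h⟩ := hxy x hx
    refine ⟨mzds_leaf_cont π hπ hπe ι hι hιe hopen x y h (hL1 y hy), fun ℓ hℓ hℓp => ?_⟩
    by_cases hℓr : ℓ = r
    · exact ⟨Ar, hℓr ▸ hAr, mzds_leaf_triv_r hQuot hConn hctx hr2 hH π hπ hπe ι hι hιe hcard
        htriv x y h (hL4 y hy)⟩
    · obtain ⟨A, hA, hAW, hAL⟩ := hL2 ℓ hℓ hℓp hℓr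
      exact ⟨A, hA, mzds_leaf_unram π hπ hπe ι hι hιe _ hAW x y h (hAL y hy)⟩
  obtain ⟨hfinS, hleS, hgoodS⟩ := hTriv E hcard htriv SW hcond
  have hcI : Nat.card ↥(mzh_H0 ↥(Ap.inertiaSubgroupIn ℚ) E) ≤ r := by
    rw [← hcard]
    exact Nat.card_le_card_of_injective _ Subtype.coe_injective
  have hcΓ : Nat.card ↥(mzh_H0 GQ E) = r := by
    have htop : mzh_H0 GQ E = ⊤ := by
      ext e
      simp only [AddSubgroup.mem_top, iff_true]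
      exact fun σ => htriv σ e
    rw [htop, AddSubgroup.card_top, hcard]
  refine ⟨hfinS, fun hgood => ?_, ?_⟩
  · have h1 := hgoodS (fun x hx => (AddMonoidHom.mem_ker).mp (hgood hx))
    rw [hcΓ, hcard]
    calc Nat.card ↥SW * r * Nat.card ↥(mzh_H0 ↥(Ap.inertiaSubgroupIn ℚ) E)
        ≤ 1 * r * r := Nat.mul_le_mul (Nat.mul_le_mul_right _ h1) hcI
      _ = r * r := by ring
  · rw [hcΓ, hcard]
    exact Nat.mul_le_mul (Nat.mul_le_mul_right _ hleS) hcI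

/-- **The `μ_r`-leaf.** -/
theorem mzds_leaf_bound_mu (hr : r.Prime) (hr2 : r ≠ 2) (hAr : Ar.LiesOverPrime r)
    {cyc : GQ → ℕ} (hMu : mzds_SeamMu p r Ap) (hCyc : mzds_SeamCycT r cyc)
    (hQuot : mzo_SeamQuot) (hMuO : mzo_SeamMuOrder) (hMuU : mzo_SeamMuUnit)
    (hctx : mzo_Ctx r O Qb Ar ↥(Ar.inertiaSubgroupIn ℚ))
    {H : Subalgebra O (G → Qb)} (hH : mzo_IsOrder Ar ↥(Ar.inertiaSubgroupIn ℚ) G H)
    (hopen : ∀ g : G, ∃ K : IntermediateField ℚ Qb, FiniteDimensional ℚ K ∧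
      ∀ σ ∈ K.fixingSubgroup, σ • g = g)
    (L : AddSubgroup (mzh_H1 GQ G))
    (hL1 : ∀ x ∈ L, mzds_Cont x)
    (hL2 : ∀ ℓ : ℕ, ℓ.Prime → ℓ ≠ p → ℓ ≠ r → ∃ A : ValuationSubring Qb, A.LiesOverPrime ℓ ∧
      (∀ σ ∈ A.inertiaSubgroupIn ℚ, ∀ g : G, σ • g = g) ∧
      ∀ x ∈ L, mzh_H1resSub (A.inertiaSubgroupIn ℚ) x = 0)
    (hL4 : ∀ x ∈ L, ∀ z : ↥(mzh_Z1 GQ G), mzh_cls GQ G z = x →
      mzo_Flat Ar ↥(Ar.inertiaSubgroupIn ℚ) H (fun σ => (z : GQ → G) σ))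
    (π : G →+ Q) (hπ : Function.Surjective π) (hπe : ∀ (σ : GQ) (g : G), π (σ • g) = σ • π g)
    (ι : E →+ Q) (hι : Function.Injective ι) (hιe : ∀ (σ : GQ) (e : E), ι (σ • e) = σ • ι e)
    (hcard : Nat.card E = r) (hmu : ∀ (σ : GQ) (e : E), σ • e = cyc σ • e) :
    Finite ↥((L.map (mzh_H1map π hπe)).comap (mzh_H1map ι hιe)) ∧
      ((L.map (mzh_H1map π hπe)).comap (mzh_H1map ι hιe) ≤
          (mzh_H1resSub (Ap.inertiaSubgroupIn ℚ)).ker →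
        Nat.card ↥((L.map (mzh_H1map π hπe)).comap (mzh_H1map ι hιe)) * 1 *
            Nat.card ↥(mzh_H0 ↥(Ap.inertiaSubgroupIn ℚ) E) ≤
          Nat.card ↥(mzh_H0 GQ E) * Nat.card E) ∧
      Nat.card ↥((L.map (mzh_H1map π hπe)).comap (mzh_H1map ι hιe)) * 1 *
          Nat.card ↥(mzh_H0 ↥(Ap.inertiaSubgroupIn ℚ) E) ≤
        Nat.card ↥(mzh_H0 GQ E) * Nat.card E * r := by
  haveI hfinE : Finite E := Nat.finite_of_card_ne_zero (by rw [hcard]; exact hr.ne_zero)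
  haveI hntE : Nontrivial E :=
    Finite.one_lt_card_iff_nontrivial.mp (by rw [hcard]; exact hr.one_lt)
  set SW := (L.map (mzh_H1map π hπe)).comap (mzh_H1map ι hιe) with hSW
  obtain ⟨T, hT, hTi, hTe⟩ := hCyc E hcard hmu
  have hxy : ∀ x ∈ SW, ∃ y ∈ L, mzh_H1map ι hιe x = mzh_H1map π hπe y := by
    intro x hx
    obtain ⟨y, hy, hyx⟩ := hx
    exact ⟨y, hy, hyx.symm⟩
  have hcond : ∀ x ∈ SW, mzds_Cont x ∧ ∀ ℓ : ℕ, ℓ.Prime → ℓ ≠ p →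
      ∃ A : ValuationSubring Qb, A.LiesOverPrime ℓ ∧ mzds_UnitAt T A x := by
    intro x hx
    obtain ⟨y, hy, h⟩ := hxy x hx
    refine ⟨mzds_leaf_cont π hπ hπe ι hι hιe hopen x y h (hL1 y hy), fun ℓ hℓ hℓp => ?_⟩
    by_cases hℓr : ℓ = r
    · exact ⟨Ar, hℓr ▸ hAr, mzds_leaf_mu_r hQuot hMuO hMuU hctx hr2 hH π hπ hπe ι hι hιe hcard
        T hT hTi hTe x y h (hL4 y hy)⟩
    · obtain ⟨A, hA, hAW, hAL⟩ := hL2 ℓ hℓ hℓp hℓr
      exact ⟨A, hA, mzds_unitAt_of_unram T hT hTi hTe A x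
        (mzds_leaf_unram π hπ hπe ι hι hιe _ hAW x y h (hAL y hy))⟩
  obtain ⟨hfinS, hleS, hgoodS⟩ := hMu E hcard T hT hTi hTe SW hcond
  have hcI : Nat.card ↥(mzh_H0 ↥(Ap.inertiaSubgroupIn ℚ) E) ≤ r := by
    rw [← hcard]
    exact Nat.card_le_card_of_injective _ Subtype.coe_injective
  refine ⟨hfinS, fun hgood => ?_, ?_⟩
  · have h1 := hgoodS (fun x hx =>
      mzds_unitAt_of_unram T hT hTi hTe Ap x ((AddMonoidHom.mem_ker).mp (hgood hx)))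
    rw [hcard, mul_one]
    exact Nat.mul_le_mul h1 hcI
  · rw [hcard, mul_one]
    calc Nat.card ↥SW * Nat.card ↥(mzh_H0 ↥(Ap.inertiaSubgroupIn ℚ) E)
        ≤ r * Nat.card ↥(mzh_H0 GQ E) * r := Nat.mul_le_mul hleS hcI
      _ = Nat.card ↥(mzh_H0 GQ E) * r * r := by ring

end

end Fermat.Agent.MZ
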