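/-
Project MAZUR (S15), node [F-DESC] (helper9): the composition series consumed by the Selmer bound
(the output shape of (F1), helper7 #2888), and small transport lemmas.
Prefix `mzds_`.
-/
import Fermat.Agent.MZ.Desc.SubQuot

set_option autoImplicit false

namespace Fermat.Agent.MZ

section Series

variable {Γ : Type*} [Group Γ] {J : Type*} [AddCommGroup J] [DistribMulAction Γ J]

/-- A `Γ`-stable series `F 0 ≥ F 1 ≥ ⋯ ≥ F n = 0` with steps of index `r` on which `Γ` acts
trivially (`eps i = false`) or through `cyc` (`eps i = true`). -/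
structure mzds_IsSeries (r : ℕ) (cyc : Γ → ℕ) (n : ℕ) (F : ℕ → AddSubgroup J)
    (eps : ℕ → Bool) : Prop where
  bot : F n = ⊥
  step : ∀ i < n, F (i + 1) ≤ F i ∧ mzh_Stable Γ (F i) ∧ (F (i + 1)).relIndex (F i) = r ∧
    ∀ σ : Γ, ∀ x ∈ F i, σ • x - (if eps i then cyc σ • x else x) ∈ F (i + 1)

variable {r : ℕ} {cyc : Γ → ℕ} {n : ℕ} {F : ℕ → AddSubgroup J} {eps : ℕ → Bool}

theorem mzds_IsSeries.stable (h : mzds_IsSeries r cyc n F eps) {i : ℕ} (hi : i ≤ n) :
    mzh_Stable Γ (F i) := by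
  rcases Nat.lt_or_ge i n with h1 | h1
  · exact (h.step i h1).2.1
  · have : i = n := le_antisymm hi h1
    rw [this, h.bot]
    intro σ a ha
    rw [AddSubgroup.mem_bot] at ha ⊢
    rw [ha, smul_zero]

theorem mzds_IsSeries.anti (h : mzds_IsSeries r cyc n F eps) {i j : ℕ} (hij : i ≤ j)
    (hj : j ≤ n) : F j ≤ F i := by
  induction j with
  | zero =>
    have : i = 0 := Nat.le_zero.mp hij
    rw [this]
  | succ j ih =>
    rcases Nat.eq_or_lt_of_le hij with h1 | h1
    · rw [h1]
    · exact (h.step j (Nat.lt_of_succ_le hj)).1.trans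
        (ih (Nat.lt_succ_iff.mp h1) (Nat.le_of_succ_le hj))

/-- The number of steps of trivial type below `j`. -/
def mzds_cnt (eps : ℕ → Bool) (j : ℕ) : ℕ :=
  ((Finset.range j).filter (fun i => eps i = false)).card

theorem mzds_cnt_zero (eps : ℕ → Bool) : mzds_cnt eps 0 = 0 := by
  simp [mzds_cnt]

theorem mzds_cnt_succ (eps : ℕ → Bool) (j : ℕ) :
    mzds_cnt eps (j + 1) = mzds_cnt eps j + (if eps j then 0 else 1) := by
  unfold mzds_cnt
  rw [Finset.range_add_one, Finset.filter_insert]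
  cases h : eps j
  · simp
  · simp

end Series

section Transport

variable {Γ : Type*} [Group Γ] {A B : Type*} [AddCommGroup A] [DistribMulAction Γ A]
  [AddCommGroup B] [DistribMulAction Γ B]

/-- `H¹` of a bijective equivariant map is injective. -/
theorem mzds_H1map_injective_of_bijective (φ : A →+ B)
    (hφe : ∀ (σ : Γ) (a : A), φ (σ • a) = σ • φ a) (hφ : Function.Bijective φ) :
    Function.Injective (mzh_H1map φ hφe) := by
  rw [injective_iff_map_eq_zero]
  intro x hx
  obtain ⟨c, rfl⟩ := mzh_cls_surjective Γ A x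
  rw [mzh_H1map_cls, mzh_cls_eq_zero_iff] at hx
  obtain ⟨b, hb⟩ := hx
  obtain ⟨a, rfl⟩ := hφ.2 b
  rw [mzh_cls_eq_zero_iff]
  refine ⟨a, fun σ => hφ.1 ?_⟩
  rw [map_sub, hφe, ← hb σ, mzh_Z1map_apply]

/-- A bijective equivariant map preserves the number of invariants of any subgroup. -/
theorem mzds_card_H0_of_bijective (φ : A →+ B)
    (hφe : ∀ (σ : Γ) (a : A), φ (σ • a) = σ • φ a) (hφ : Function.Bijective φ) :
    Nat.card ↥(mzh_H0 Γ A) = Nat.card ↥(mzh_H0 Γ B) := by
  refine Nat.card_congr (Equiv.ofBijective (mzh_H0map φ hφe) ⟨?_, ?_⟩)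
  · intro a a' h
    apply Subtype.ext
    apply hφ.1
    exact congrArg Subtype.val h
  · intro b
    obtain ⟨a, ha⟩ := hφ.2 (b : B)
    have hinv : a ∈ mzh_H0 Γ A := by
      intro σ
      apply hφ.1
      rw [hφe, ha, b.2 σ]
    exact ⟨⟨a, hinv⟩, Subtype.ext ha⟩

end Transport

end Fermat.Agent.MZ
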