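/-
Project MAZUR (S15), node [F-DESC] (helper9): THE SELMER BOUND (`r` odd).

`mzds_main`: a subgroup `L ≤ H¹(G_ℚ, W)` (`W = F 0` the top of a series with constituents `ℤ/r`,
`μ_r`) all of whose classes are continuous, unramified outside `p r`, unramified at `p`, and flat
at `r` for an order `H` on `W`, satisfies
  `|L| · r ^ #(ℤ/r-constituents) · |W^{I_p}| ≤ |W^{G_ℚ}| · |W|`.
Inputs: the abstract descent (`mzh_descent_mod`), the [HOPF] outputs (OUT-1), (OUT-2), the (F6)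
leaf bounds.  Prefix `mzds_`.
-/
import Fermat.Agent.MZ.Desc.Series
import Fermat.Agent.MZ.Desc.LeafBound
import Fermat.Agent.MZ.H.InductMod

set_option autoImplicit false
set_option linter.style.haveILetI false
set_option linter.unusedSectionVars false

noncomputable section

namespace Fermat.Agent.MZ

local notation "Qb" => AlgebraicClosure ℚ
local notation "GQ" => (AlgebraicClosure ℚ ≃ₐ[ℚ] AlgebraicClosure ℚ)

section LeafFacts

variable {Γ : Type*} [Group Γ] {J : Type*} [AddCommGroup J] [DistribMulAction Γ J]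
  {r : ℕ} {cyc : Γ → ℕ} {n : ℕ} {F : ℕ → AddSubgroup J} {eps : ℕ → Bool}

theorem mzds_leaf_card (h : mzds_IsSeries r cyc n F eps) {j : ℕ} (hj : j < n) :
    Nat.card (mzds_SQ (F j) (F (j + 1))) = r := by
  rw [mzds_card_SQ]
  exact (h.step j hj).2.2.1

theorem mzds_leaf_action_triv (h : mzds_IsSeries r cyc n F eps) {j : ℕ} (hj : j < n)
    (he : eps j = false) (σ : Γ) (e : mzds_SQ (F j) (F (j + 1))) :
    (letI := mzds_sqAction (F j) (F (j + 1)) (h.stable hj.le) (h.stable hj); σ • e) = e := by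
  induction e using QuotientAddGroup.induction_on with
  | H a =>
    rw [mzds_sq_smul_mk, QuotientAddGroup.eq_iff_sub_mem, AddSubgroup.mem_addSubgroupOf]
    have := (h.step j hj).2.2.2 σ a a.2
    rw [he] at this
    simpa using this

theorem mzds_leaf_action_mu (h : mzds_IsSeries r cyc n F eps) {j : ℕ} (hj : j < n)
    (he : eps j = true) (σ : Γ) (e : mzds_SQ (F j) (F (j + 1))) :
    (letI := mzds_sqAction (F j) (F (j + 1)) (h.stable hj.le) (h.stable hj); σ • e) =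
      cyc σ • e := by
  induction e using QuotientAddGroup.induction_on with
  | H a =>
    rw [mzds_sq_smul_mk]
    have h1 : cyc σ • (QuotientAddGroup.mk a : mzds_SQ (F j) (F (j + 1))) =
        (QuotientAddGroup.mk (cyc σ • a) : mzds_SQ (F j) (F (j + 1))) := rfl
    rw [h1, QuotientAddGroup.eq_iff_sub_mem, AddSubgroup.mem_addSubgroupOf]
    have := (h.step j hj).2.2.2 σ a a.2
    rw [he] at this
    simpa using this

end LeafFacts

section Main

variable {J : Type} [AddCommGroup J] [DistribMulAction GQ J]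
  {r : ℕ} {cyc : GQ → ℕ} {n : ℕ} {F : ℕ → AddSubgroup J} {eps : ℕ → Bool}

/-- The objects of the descent: the quotients `W / F_j`, `W = F 0`. -/
abbrev mzds_Obj (F : ℕ → AddSubgroup J) (n : ℕ) (X : Fin (n + 1)) : Type :=
  mzds_SQ (F 0) (F X)

/-- The action of `GQ` on the objects. -/
@[reducible] def mzds_objAction (hS : mzds_IsSeries r cyc n F eps) (X : Fin (n + 1)) :
    DistribMulAction GQ (mzds_Obj F n X) :=
  mzds_sqAction (F 0) (F X) (hS.stable (Nat.zero_le n)) (hS.stable (Nat.lt_succ_iff.mp X.2))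

/-- `|W / F_j| = r ^ j`. -/
theorem mzds_card_obj (hS : mzds_IsSeries r cyc n F eps) {j : ℕ} (hj : j ≤ n) :
    Nat.card (mzds_SQ (F 0) (F j)) = r ^ j := by
  rw [mzds_card_SQ]
  induction j with
  | zero => rw [AddSubgroup.relIndex_self, pow_zero]
  | succ j ih =>
    have hj' : j < n := Nat.lt_of_succ_le hj
    have h1 := AddSubgroup.relIndex_mul_relIndex (F (j + 1)) (F j) (F 0) (hS.step j hj').1
      (hS.anti (Nat.zero_le j) hj'.le)
    rw [← h1, ih hj'.le, (hS.step j hj').2.2.1, pow_succ, mul_comm]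

/-- **[F-DESC] The Selmer bound** (`r` odd). -/
theorem mzds_main (p r : ℕ) (hr : r.Prime) (hr2 : r ≠ 2) (Ap Ar : ValuationSubring Qb)
    (hAr : Ar.LiesOverPrime r)
    (hS : mzds_IsSeries r cyc n F eps)
    [iW : DistribMulAction GQ ↥(F 0)]
    (hcompat : ∀ (σ : GQ) (w : ↥(F 0)), ((σ • w : ↥(F 0)) : J) = σ • (w : J))
    (hTriv : mzds_SeamTriv p r Ap) (hMu : mzds_SeamMu p r Ap) (hCyc : mzds_SeamCycT r cyc)
    (hQuot : mzo_SeamQuot) (hConn : mzo_SeamConn) (hMuO : mzo_SeamMuOrder)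
    (hMuU : mzo_SeamMuUnit)
    {O : Type} [CommRing O] [IsDomain O] [IsDiscreteValuationRing O] [Algebra O Qb]
    (hctx : mzo_Ctx r O Qb Ar ↥(Ar.inertiaSubgroupIn ℚ))
    (H : Subalgebra O (↥(F 0) → Qb)) (hH : mzo_IsOrder Ar ↥(Ar.inertiaSubgroupIn ℚ) ↥(F 0) H)
    (hopen : ∀ g : ↥(F 0), ∃ K : IntermediateField ℚ Qb, FiniteDimensional ℚ K ∧
      ∀ σ ∈ K.fixingSubgroup, σ • g = g)
    (L : AddSubgroup (mzh_H1 GQ ↥(F 0)))
    (hL1 : ∀ x ∈ L, mzds_Cont x)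
    (hL2 : ∀ ℓ : ℕ, ℓ.Prime → ℓ ≠ p → ℓ ≠ r → ∃ A : ValuationSubring Qb, A.LiesOverPrime ℓ ∧
      (∀ σ ∈ A.inertiaSubgroupIn ℚ, ∀ g : ↥(F 0), σ • g = g) ∧
      ∀ x ∈ L, mzh_H1resSub (A.inertiaSubgroupIn ℚ) x = 0)
    (hL3 : ∀ x ∈ L, mzh_H1resSub (Ap.inertiaSubgroupIn ℚ) x = 0)
    (hL4 : ∀ x ∈ L, ∀ z : ↥(mzh_Z1 GQ ↥(F 0)), mzh_cls GQ ↥(F 0) z = x →
      mzo_Flat Ar ↥(Ar.inertiaSubgroupIn ℚ) H (fun σ => (z : GQ → ↥(F 0)) σ)) :
    Finite ↥L ∧
      Nat.card ↥L * r ^ mzds_cnt eps n * Nat.card ↥(mzh_H0 ↥(Ap.inertiaSubgroupIn ℚ) ↥(F 0)) ≤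
        Nat.card ↥(mzh_H0 GQ ↥(F 0)) * Nat.card ↥(F 0) := by
  classical
  letI iM : ∀ X : Fin (n + 1), DistribMulAction GQ (mzds_Obj F n X) := fun X =>
    mzds_objAction hS X
  -- the projections `W → W / F_j`
  let mk : ∀ X : Fin (n + 1), ↥(F 0) →+ mzds_Obj F n X := fun X =>
    QuotientAddGroup.mk' ((F X).addSubgroupOf (F 0))
  have hmk : ∀ (X : Fin (n + 1)) (σ : GQ) (w : ↥(F 0)), mk X (σ • w) = σ • mk X w := by
    intro X σ w
    show (QuotientAddGroup.mk (σ • w) : mzds_Obj F n X) =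
      (QuotientAddGroup.mk (⟨σ • (w : J), hS.stable (Nat.zero_le n) σ w w.2⟩ : ↥(F 0)) :
        mzds_Obj F n X)
    exact congrArg _ (Subtype.ext (hcompat σ w))
  have hmksurj : ∀ X : Fin (n + 1), Function.Surjective (mk X) := fun X =>
    QuotientAddGroup.mk'_surjective _
  let Sel : ∀ X : Fin (n + 1), AddSubgroup (mzh_H1 GQ (mzds_Obj F n X)) := fun X =>
    L.map (mzh_H1map (mk X) (hmk X))
  let Z : Fin (n + 1) → ℕ := fun X => r ^ mzds_cnt eps X
  haveI hfinW : Finite ↥(F 0) := by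
    have htop' : Nat.card (mzds_SQ (F 0) (F n)) = r ^ n := mzds_card_obj hS le_rfl
    haveI : Finite (mzds_SQ (F 0) (F n)) :=
      Nat.finite_of_card_ne_zero (by rw [htop']; exact pow_ne_zero _ hr.ne_zero)
    refine Finite.of_injective (QuotientAddGroup.mk' ((F n).addSubgroupOf (F 0))) ?_
    rw [injective_iff_map_eq_zero]
    intro a ha
    have h1 : a ∈ (F n).addSubgroupOf (F 0) := (QuotientAddGroup.eq_zero_iff a).mp ha
    rw [AddSubgroup.mem_addSubgroupOf, hS.bot, AddSubgroup.mem_bot] at h1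
    exact Subtype.ext h1
  have hstep : ∀ X : Fin (n + 1), Finite (mzds_Obj F n X) →
      (∃ m : ℕ, Nat.card (mzds_Obj F n X) = r ^ m) →
      mzh_HasStepMod (Ap.inertiaSubgroupIn ℚ) r (mzds_Obj F n) Sel Z X := by
    intro X hXfin hXpow
    obtain ⟨j, hjlt⟩ := X
    cases j with
    | zero =>
      left
      constructor
      · have hc : Nat.card (mzds_Obj F n ⟨0, hjlt⟩) = 1 := by
          have := mzds_card_obj hS (Nat.zero_le n)
          rw [pow_zero] at this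
          exact this
        haveI := hXfin
        exact Finite.card_le_one_iff_subsingleton.mp hc.le
      · show r ^ mzds_cnt eps 0 ≤ 1
        rw [mzds_cnt_zero, pow_zero]
    | succ j =>
      right
      have hjn : j < n := Nat.lt_of_succ_lt_succ hjlt
      letI iE : DistribMulAction GQ (mzds_SQ (F j) (F (j + 1))) :=
        mzds_sqAction (F j) (F (j + 1)) (hS.stable hjn.le) (hS.stable hjn)
      letI iX : DistribMulAction GQ (mzds_SQ (F 0) (F (j + 1))) := iM ⟨j + 1, hjlt⟩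
      letI iY : DistribMulAction GQ (mzds_SQ (F 0) (F j)) := iM ⟨j, Nat.lt_succ_of_lt hjn⟩
      have hFj0 : F j ≤ F 0 := hS.anti (Nat.zero_le j) hjn.le
      have hses := mzds_isSES (U := F 0) (U' := F j) (V := F (j + 1)) hFj0 (hS.step j hjn).1
        (hS.stable (Nat.zero_le n)) (hS.stable hjn.le) (hS.stable hjn)
      have hcardE : Nat.card (mzds_SQ (F j) (F (j + 1))) = r := mzds_leaf_card hS hjn
      haveI hfinE : Finite (mzds_SQ (F j) (F (j + 1))) :=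
        Nat.finite_of_card_ne_zero (by rw [hcardE]; exact hr.ne_zero)
      haveI hntE : Nontrivial (mzds_SQ (F j) (F (j + 1))) :=
        Finite.one_lt_card_iff_nontrivial.mp (by rw [hcardE]; exact hr.one_lt)
      have hunrX : Sel ⟨j + 1, hjlt⟩ ≤ (mzh_H1resSub (Ap.inertiaSubgroupIn ℚ)).ker := by
        rintro _ ⟨y, hy, rfl⟩
        rw [AddMonoidHom.mem_ker, mzh_H1resSub_H1map, hL3 y hy, map_zero]
      have himg : (Sel ⟨j + 1, hjlt⟩).map
          (mzh_H1map (mzds_sqMap le_rfl (hS.step j hjn).1) hses.g_smul) ≤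
          Sel ⟨j, Nat.lt_succ_of_lt hjn⟩ := by
        rintro _ ⟨_, ⟨y, hy, rfl⟩, rfl⟩
        refine ⟨y, hy, ?_⟩
        obtain ⟨c, rfl⟩ := mzh_cls_surjective GQ _ y
        rfl
      have hcase : eps j = false ∨ eps j = true := by
        cases eps j
        · exact Or.inl rfl
        · exact Or.inr rfl
      rcases hcase with he | he
      · refine ⟨⟨mzds_SQ (F j) (F (j + 1))⟩, r, ⟨j, Nat.lt_succ_of_lt hjn⟩,
          mzds_sqMap hFj0 le_rfl, mzds_sqMap le_rfl (hS.step j hjn).1, hses, hntE, ?_, hunrX,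
          himg, ?_⟩
        · show r ^ mzds_cnt eps (j + 1) ≤ r * r ^ mzds_cnt eps j
          rw [mzds_cnt_succ, he]
          simp only [Bool.false_eq_true, if_false]
          rw [pow_succ, mul_comm]
        · have htrivE := mzds_leaf_action_triv hS hjn he
          exact mzds_leaf_bound_triv hr hr2 hAr hTriv hQuot hConn hctx hH hopen L hL1 hL2 hL4
            (mk ⟨j + 1, hjlt⟩) (hmksurj ⟨j + 1, hjlt⟩) (hmk ⟨j + 1, hjlt⟩)
            (mzds_sqMap hFj0 le_rfl) hses.inj hses.f_smul hcardE htrivE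
      · refine ⟨⟨mzds_SQ (F j) (F (j + 1))⟩, 1, ⟨j, Nat.lt_succ_of_lt hjn⟩,
          mzds_sqMap hFj0 le_rfl, mzds_sqMap le_rfl (hS.step j hjn).1, hses, hntE, ?_, hunrX,
          himg, ?_⟩
        · show r ^ mzds_cnt eps (j + 1) ≤ 1 * r ^ mzds_cnt eps j
          rw [mzds_cnt_succ, he]
          simp
        · have hmuE := mzds_leaf_action_mu hS hjn he
          exact mzds_leaf_bound_mu hr hr2 hAr hMu hCyc hQuot hMuO hMuU hctx hH hopen L hL1 hL2
            hL4 (mk ⟨j + 1, hjlt⟩) (hmksurj ⟨j + 1, hjlt⟩) (hmk ⟨j + 1, hjlt⟩)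
            (mzds_sqMap hFj0 le_rfl) hses.inj hses.f_smul hcardE hmuE
  -- the top object
  have htop : Nat.card (mzds_Obj F n (Fin.last n)) = r ^ n := mzds_card_obj hS le_rfl
  haveI : Finite (mzds_Obj F n (Fin.last n)) :=
    Nat.finite_of_card_ne_zero (by rw [htop]; exact pow_ne_zero _ hr.ne_zero)
  obtain ⟨hfin, hineq⟩ := mzh_descent_mod (Ap.inertiaSubgroupIn ℚ) r hr (mzds_Obj F n) Sel Z
    hstep (Fin.last n) ⟨n, htop⟩
  -- `W → W / F_n = W / 0` is bijective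
  have hbij : Function.Bijective (mk (Fin.last n)) := by
    refine ⟨?_, hmksurj _⟩
    rw [injective_iff_map_eq_zero]
    intro a ha
    have h1 : a ∈ (F (Fin.last n : ℕ)).addSubgroupOf (F 0) :=
      (QuotientAddGroup.eq_zero_iff a).mp ha
    rw [AddSubgroup.mem_addSubgroupOf, Fin.val_last, hS.bot, AddSubgroup.mem_bot] at h1
    exact Subtype.ext h1
  have hinj := mzds_H1map_injective_of_bijective (mk (Fin.last n)) (hmk _) hbij
  have e1 : Nat.card ↥(Sel (Fin.last n)) = Nat.card ↥L :=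
    (Nat.card_congr (L.equivMapOfInjective _ hinj).toEquiv).symm
  have e2 : Nat.card ↥(mzh_H0 ↥(Ap.inertiaSubgroupIn ℚ) (mzds_Obj F n (Fin.last n))) =
      Nat.card ↥(mzh_H0 ↥(Ap.inertiaSubgroupIn ℚ) ↥(F 0)) :=
    (mzds_card_H0_of_bijective (Γ := ↥(Ap.inertiaSubgroupIn ℚ)) (mk (Fin.last n))
      (fun σ w => hmk _ σ w) hbij).symm
  have e3 : Nat.card ↥(mzh_H0 GQ (mzds_Obj F n (Fin.last n))) = Nat.card ↥(mzh_H0 GQ ↥(F 0)) :=
    (mzds_card_H0_of_bijective (mk (Fin.last n)) (hmk _) hbij).symm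
  have e4 : Nat.card (mzds_Obj F n (Fin.last n)) = Nat.card ↥(F 0) :=
    (Nat.card_congr (Equiv.ofBijective _ hbij)).symm
  have e5 : Z (Fin.last n) = r ^ mzds_cnt eps n := rfl
  rw [e1, e2, e3, e4, e5] at hineq
  refine ⟨?_, hineq⟩
  haveI := hfin
  exact Finite.of_equiv _ (L.equivMapOfInjective _ hinj).symm.toEquiv

/-- **[F-DESC] The Selmer bound, final form**: with the balance `|W| ≤ r ^ #(ℤ/r) · |W^{I_p}|`
(from (F2) and (F3)), `|L| ≤ |W^{G_ℚ}|`. -/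
theorem mzds_bound (p r : ℕ) (hr : r.Prime) (hr2 : r ≠ 2) (Ap Ar : ValuationSubring Qb)
    (hAr : Ar.LiesOverPrime r)
    (hS : mzds_IsSeries r cyc n F eps)
    [iW : DistribMulAction GQ ↥(F 0)]
    (hcompat : ∀ (σ : GQ) (w : ↥(F 0)), ((σ • w : ↥(F 0)) : J) = σ • (w : J))
    (hTriv : mzds_SeamTriv p r Ap) (hMu : mzds_SeamMu p r Ap) (hCyc : mzds_SeamCycT r cyc)
    (hQuot : mzo_SeamQuot) (hConn : mzo_SeamConn) (hMuO : mzo_SeamMuOrder)
    (hMuU : mzo_SeamMuUnit)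
    {O : Type} [CommRing O] [IsDomain O] [IsDiscreteValuationRing O] [Algebra O Qb]
    (hctx : mzo_Ctx r O Qb Ar ↥(Ar.inertiaSubgroupIn ℚ))
    (H : Subalgebra O (↥(F 0) → Qb)) (hH : mzo_IsOrder Ar ↥(Ar.inertiaSubgroupIn ℚ) ↥(F 0) H)
    (hopen : ∀ g : ↥(F 0), ∃ K : IntermediateField ℚ Qb, FiniteDimensional ℚ K ∧
      ∀ σ ∈ K.fixingSubgroup, σ • g = g)
    (L : AddSubgroup (mzh_H1 GQ ↥(F 0)))
    (hL1 : ∀ x ∈ L, mzds_Cont x)
    (hL2 : ∀ ℓ : ℕ, ℓ.Prime → ℓ ≠ p → ℓ ≠ r → ∃ A : ValuationSubring Qb, A.LiesOverPrime ℓ ∧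
      (∀ σ ∈ A.inertiaSubgroupIn ℚ, ∀ g : ↥(F 0), σ • g = g) ∧
      ∀ x ∈ L, mzh_H1resSub (A.inertiaSubgroupIn ℚ) x = 0)
    (hL3 : ∀ x ∈ L, mzh_H1resSub (Ap.inertiaSubgroupIn ℚ) x = 0)
    (hL4 : ∀ x ∈ L, ∀ z : ↥(mzh_Z1 GQ ↥(F 0)), mzh_cls GQ ↥(F 0) z = x →
      mzo_Flat Ar ↥(Ar.inertiaSubgroupIn ℚ) H (fun σ => (z : GQ → ↥(F 0)) σ))
    (hbal : Nat.card ↥(F 0) ≤
      r ^ mzds_cnt eps n * Nat.card ↥(mzh_H0 ↥(Ap.inertiaSubgroupIn ℚ) ↥(F 0))) :
    Finite ↥L ∧ Nat.card ↥L ≤ Nat.card ↥(mzh_H0 GQ ↥(F 0)) := by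
  obtain ⟨hfin, hineq⟩ := mzds_main p r hr hr2 Ap Ar hAr hS hcompat hTriv hMu hCyc hQuot hConn
    hMuO hMuU hctx H hH hopen L hL1 hL2 hL3 hL4
  refine ⟨hfin, ?_⟩
  have hWpos : 0 < Nat.card ↥(F 0) := by
    rcases Nat.eq_zero_or_pos (Nat.card ↥(F 0)) with h0 | h0
    · exfalso
      have hfinW : Finite ↥(F 0) := by
        have htop' : Nat.card (mzds_SQ (F 0) (F n)) = r ^ n := mzds_card_obj hS le_rfl
        haveI : Finite (mzds_SQ (F 0) (F n)) :=
          Nat.finite_of_card_ne_zero (by rw [htop']; exact pow_ne_zero _ hr.ne_zero)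
        refine Finite.of_injective (QuotientAddGroup.mk' ((F n).addSubgroupOf (F 0))) ?_
        rw [injective_iff_map_eq_zero]
        intro a ha
        have h1 : a ∈ (F n).addSubgroupOf (F 0) := (QuotientAddGroup.eq_zero_iff a).mp ha
        rw [AddSubgroup.mem_addSubgroupOf, hS.bot, AddSubgroup.mem_bot] at h1
        exact Subtype.ext h1
      exact absurd h0 Nat.card_pos.ne'
    · exact h0
  have hpos : 0 < r ^ mzds_cnt eps n * Nat.card ↥(mzh_H0 ↥(Ap.inertiaSubgroupIn ℚ) ↥(F 0)) :=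
    lt_of_lt_of_le hWpos hbal
  apply Nat.le_of_mul_le_mul_right _ hpos
  calc Nat.card ↥L * (r ^ mzds_cnt eps n *
        Nat.card ↥(mzh_H0 ↥(Ap.inertiaSubgroupIn ℚ) ↥(F 0)))
      = Nat.card ↥L * r ^ mzds_cnt eps n *
        Nat.card ↥(mzh_H0 ↥(Ap.inertiaSubgroupIn ℚ) ↥(F 0)) := by ring
    _ ≤ Nat.card ↥(mzh_H0 GQ ↥(F 0)) * Nat.card ↥(F 0) := hineq
    _ ≤ Nat.card ↥(mzh_H0 GQ ↥(F 0)) * (r ^ mzds_cnt eps n *
        Nat.card ↥(mzh_H0 ↥(Ap.inertiaSubgroupIn ℚ) ↥(F 0))) := Nat.mul_le_mul_left _ hbal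

end Main

end Fermat.Agent.MZ
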