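/-
Project MAZUR (S15), node [F-DESC] (helper9), VERSION 2: THE SELMER BOUND FOR EVERY PRIME `r ≠ p`
(`r` odd AND `r = 2`), CLOSED (no seam hypotheses), in the design of helper4's note #2971
(architect ruling (R7)): the count uses the TWO local subgroups `I_p` and `⟨c⟩`, `c` a complex
conjugation.

`mzds_main2`: a subgroup `L ≤ H¹(G_ℚ, W)` (`W = F 0` the top of a series with constituents `ℤ/r`,
`μ_r`) all of whose classes are
 (C1) continuous, (C2) unramified outside `p r`, (C3) unramified at `p`,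
 (C4) flat at `r` (per class: SOME representative is flat for SOME order on `W`: `mzds_FlatAt`),
 (C5) trivial on `⟨c⟩`
satisfies
  `|L| · |W^{I_p}| · |W^{⟨c⟩}| ≤ |W^{G_ℚ}| · |W|`.
`mzds_bound2`: with the balances `|W| ≤ |W^{I_p}|²` (F3) and `|W| ≤ |W^{⟨c⟩}|²` (F2):
`|L| ≤ |W^{G_ℚ}|`.  (For an arbitrary `L₀` without (C5) use helper4's `mzs_ri_real_index`:
`|L₀| ≤ |W[2]| · |L₀ ⊓ ker res_⟨c⟩|`.)
Inputs: the abstract descent `mzh_descent_mod2`, the leaf bounds `MZ/Desc/LeafBound2.lean`.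
Prefix `mzds_`.
-/
import Fermat.Agent.MZ.Desc.Main
import Fermat.Agent.MZ.Desc.LeafBound2
import Fermat.Agent.MZ.H.InductTwo

set_option autoImplicit false
set_option linter.style.haveILetI false
set_option linter.unusedSectionVars false

noncomputable section

namespace Fermat.Agent.MZ

local notation "Qb" => AlgebraicClosure ℚ
local notation "GQ" => (AlgebraicClosure ℚ ≃ₐ[ℚ] AlgebraicClosure ℚ)

section Main

variable {J : Type} [AddCommGroup J] [DistribMulAction GQ J]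
  {r : ℕ} {n : ℕ} {F : ℕ → AddSubgroup J} {eps : ℕ → Bool}

/-- The mod-`r` cyclotomic character with values in `ℕ` (`= mzf1_cyc r`, `MZ/F1/Final.lean`). -/
def mzds_cyc (r : ℕ) [NeZero r] (σ : GQ) : ℕ :=
  ((Fermat.Agent.DS.dspk_cyc r σ : (ZMod r)ˣ) : ZMod r).val

/-- **[F-DESC] The Selmer bound, all primes `r ≠ p`.** -/
theorem mzds_main2 (p r : ℕ) (hp : p.Prime) (hr : r.Prime) [NeZero r] (hrp : r ≠ p)
    (Ap Ar : ValuationSubring Qb) (hAp : Ap.LiesOverPrime p) (hAr : Ar.LiesOverPrime r)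
    (ι : Qb →+* ℂ) (c : GQ) (hc : ∀ z : Qb, ι (c z) = starRingEnd ℂ (ι z))
    (hS : mzds_IsSeries r (mzds_cyc r) n F eps)
    [iW : DistribMulAction GQ ↥(F 0)]
    (hcompat : ∀ (σ : GQ) (w : ↥(F 0)), ((σ • w : ↥(F 0)) : J) = σ • (w : J))
    {O : Type} [CommRing O] [IsDomain O] [IsDiscreteValuationRing O] [Algebra O Qb]
    (hctx : mzo_Ctx r O Qb Ar ↥(Ar.inertiaSubgroupIn ℚ))
    (hopen : ∀ g : ↥(F 0), ∃ K : IntermediateField ℚ Qb, FiniteDimensional ℚ K ∧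
      ∀ σ ∈ K.fixingSubgroup, σ • g = g)
    (L : AddSubgroup (mzh_H1 GQ ↥(F 0)))
    (hL1 : ∀ x ∈ L, mzq_Cont x)
    (hL2 : ∀ ℓ : ℕ, ℓ.Prime → ℓ ≠ p → ℓ ≠ r → ∃ A : ValuationSubring Qb, A.LiesOverPrime ℓ ∧
      (∀ σ ∈ A.inertiaSubgroupIn ℚ, ∀ g : ↥(F 0), σ • g = g) ∧
      ∀ x ∈ L, mzh_H1resSub (A.inertiaSubgroupIn ℚ) x = 0)
    (hL3 : ∀ x ∈ L, mzh_H1resSub (Ap.inertiaSubgroupIn ℚ) x = 0)
    (hL4 : ∀ x ∈ L, mzds_FlatAt O Ar x)
    (hL5 : ∀ x ∈ L, mzh_H1resSub (Subgroup.zpowers c) x = 0) :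
    Finite ↥L ∧
      Nat.card ↥L * Nat.card ↥(mzh_H0 ↥(Ap.inertiaSubgroupIn ℚ) ↥(F 0)) *
          Nat.card ↥(mzh_H0 ↥(Subgroup.zpowers c) ↥(F 0)) ≤
        Nat.card ↥(mzh_H0 GQ ↥(F 0)) * Nat.card ↥(F 0) := by
  classical
  letI iM : ∀ X : Fin (n + 1), DistribMulAction GQ (mzds_Obj F n X) := fun X =>
    mzds_objAction hS X
  -- the projections `W → W / F_j`
  let mk : ∀ X : Fin (n + 1), ↥(F 0) →+ mzds_Obj F n X := fun X =>
    QuotientAddGroup.mk' ((F X).addSubgroupOf (F 0))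
  have hmk : ∀ (X : Fin (n + 1)) (σ : GQ) (w : ↥(F 0)), mk X (σ • w) = σ • mk X w := by
    intro X σ w
    show (QuotientAddGroup.mk (σ • w) : mzds_Obj F n X) =
      (QuotientAddGroup.mk (⟨σ • (w : J), hS.stable (Nat.zero_le n) σ w w.2⟩ : ↥(F 0)) :
        mzds_Obj F n X)
    exact congrArg _ (Subtype.ext (hcompat σ w))
  have hmksurj : ∀ X : Fin (n + 1), Function.Surjective (mk X) := fun X =>
    QuotientAddGroup.mk'_surjective _
  let Sel : ∀ X : Fin (n + 1), AddSubgroup (mzh_H1 GQ (mzds_Obj F n X)) := fun X =>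
    L.map (mzh_H1map (mk X) (hmk X))
  let Z : Fin (n + 1) → ℕ := fun _ => 1
  haveI hfinW : Finite ↥(F 0) := by
    have htop' : Nat.card (mzds_SQ (F 0) (F n)) = r ^ n := mzds_card_obj hS le_rfl
    haveI : Finite (mzds_SQ (F 0) (F n)) :=
      Nat.finite_of_card_ne_zero (by rw [htop']; exact pow_ne_zero _ hr.ne_zero)
    refine Finite.of_injective (QuotientAddGroup.mk' ((F n).addSubgroupOf (F 0))) ?_
    rw [injective_iff_map_eq_zero]
    intro a ha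
    have h1 : a ∈ (F n).addSubgroupOf (F 0) := (QuotientAddGroup.eq_zero_iff a).mp ha
    rw [AddSubgroup.mem_addSubgroupOf, hS.bot, AddSubgroup.mem_bot] at h1
    exact Subtype.ext h1
  have hstep : ∀ X : Fin (n + 1), Finite (mzds_Obj F n X) →
      (∃ m : ℕ, Nat.card (mzds_Obj F n X) = r ^ m) →
      mzh_HasStepMod2 (Ap.inertiaSubgroupIn ℚ) (Subgroup.zpowers c) r (mzds_Obj F n) Sel Z X := by
    intro X hXfin hXpow
    obtain ⟨j, hjlt⟩ := X
    cases j with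
    | zero =>
      left
      constructor
      · have hc1 : Nat.card (mzds_Obj F n ⟨0, hjlt⟩) = 1 := by
          have := mzds_card_obj hS (Nat.zero_le n)
          rw [pow_zero] at this
          exact this
        haveI := hXfin
        exact Finite.card_le_one_iff_subsingleton.mp hc1.le
      · exact le_rfl
    | succ j =>
      right
      have hjn : j < n := Nat.lt_of_succ_lt_succ hjlt
      letI iE : DistribMulAction GQ (mzds_SQ (F j) (F (j + 1))) :=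
        mzds_sqAction (F j) (F (j + 1)) (hS.stable hjn.le) (hS.stable hjn)
      letI iX : DistribMulAction GQ (mzds_SQ (F 0) (F (j + 1))) := iM ⟨j + 1, hjlt⟩
      letI iY : DistribMulAction GQ (mzds_SQ (F 0) (F j)) := iM ⟨j, Nat.lt_succ_of_lt hjn⟩
      have hFj0 : F j ≤ F 0 := hS.anti (Nat.zero_le j) hjn.le
      have hses := mzds_isSES (U := F 0) (U' := F j) (V := F (j + 1)) hFj0 (hS.step j hjn).1
        (hS.stable (Nat.zero_le n)) (hS.stable hjn.le) (hS.stable hjn)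
      have hcardE : Nat.card (mzds_SQ (F j) (F (j + 1))) = r := mzds_leaf_card hS hjn
      haveI hfinE : Finite (mzds_SQ (F j) (F (j + 1))) :=
        Nat.finite_of_card_ne_zero (by rw [hcardE]; exact hr.ne_zero)
      haveI hntE : Nontrivial (mzds_SQ (F j) (F (j + 1))) :=
        Finite.one_lt_card_iff_nontrivial.mp (by rw [hcardE]; exact hr.one_lt)
      have hunrX : Sel ⟨j + 1, hjlt⟩ ≤ (mzh_H1resSub (Ap.inertiaSubgroupIn ℚ)).ker := by
        rintro _ ⟨y, hy, rfl⟩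
        rw [AddMonoidHom.mem_ker, mzh_H1resSub_H1map, hL3 y hy, map_zero]
      have hunrX' : Sel ⟨j + 1, hjlt⟩ ≤ (mzh_H1resSub (Subgroup.zpowers c)).ker := by
        rintro _ ⟨y, hy, rfl⟩
        rw [AddMonoidHom.mem_ker, mzh_H1resSub_H1map, hL5 y hy, map_zero]
      have himg : (Sel ⟨j + 1, hjlt⟩).map
          (mzh_H1map (mzds_sqMap le_rfl (hS.step j hjn).1) hses.g_smul) ≤
          Sel ⟨j, Nat.lt_succ_of_lt hjn⟩ := by
        rintro _ ⟨_, ⟨y, hy, rfl⟩, rfl⟩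
        refine ⟨y, hy, ?_⟩
        obtain ⟨c', rfl⟩ := mzh_cls_surjective GQ _ y
        rfl
      have hleaf : mzds_LeafOK r (Ap.inertiaSubgroupIn ℚ) (Subgroup.zpowers c)
          ((Sel ⟨j + 1, hjlt⟩).comap
            (mzh_H1map (mzds_sqMap hFj0 le_rfl) hses.f_smul)) := by
        by_cases hr2 : r = 2
        · subst hr2
          exact mzds_leaf_ok_two hp hAp hAr ι c hc hctx hopen L hL1 hL2 hL4
            (mk ⟨j + 1, hjlt⟩) (hmksurj ⟨j + 1, hjlt⟩) (hmk ⟨j + 1, hjlt⟩)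
            (mzds_sqMap hFj0 le_rfl) hses.inj hses.f_smul hcardE
        · have hcase : eps j = false ∨ eps j = true := by
            cases eps j
            · exact Or.inl rfl
            · exact Or.inr rfl
          rcases hcase with he | he
          · have htrivE := mzds_leaf_action_triv hS hjn he
            exact mzds_leaf_ok_triv hp hr hr2 hrp hAp hAr (Subgroup.zpowers c) hctx hopen L hL1
              hL2 hL4 (mk ⟨j + 1, hjlt⟩) (hmksurj ⟨j + 1, hjlt⟩) (hmk ⟨j + 1, hjlt⟩)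
              (mzds_sqMap hFj0 le_rfl) hses.inj hses.f_smul hcardE htrivE
          · have hmuE := mzds_leaf_action_mu hS hjn he
            exact mzds_leaf_ok_mu hp hr hr2 hAp hAr ι c hc hctx hopen L hL1 hL2 hL4
              (mk ⟨j + 1, hjlt⟩) (hmksurj ⟨j + 1, hjlt⟩) (hmk ⟨j + 1, hjlt⟩)
              (mzds_sqMap hFj0 le_rfl) hses.inj hses.f_smul hcardE hmuE
      obtain ⟨hleaffin, hleafk⟩ := hleaf
      exact ⟨⟨mzds_SQ (F j) (F (j + 1))⟩, 1, ⟨j, Nat.lt_succ_of_lt hjn⟩,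
        mzds_sqMap hFj0 le_rfl, mzds_sqMap le_rfl (hS.step j hjn).1, hses, hntE, le_rfl, hunrX,
        hunrX', himg, hleaffin, hleafk⟩
  -- the top object
  have htop : Nat.card (mzds_Obj F n (Fin.last n)) = r ^ n := mzds_card_obj hS le_rfl
  haveI : Finite (mzds_Obj F n (Fin.last n)) :=
    Nat.finite_of_card_ne_zero (by rw [htop]; exact pow_ne_zero _ hr.ne_zero)
  obtain ⟨hfin, hineq⟩ := mzh_descent_mod2 (Ap.inertiaSubgroupIn ℚ) (Subgroup.zpowers c) r hr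
    (mzds_Obj F n) Sel Z hstep (Fin.last n) ⟨n, htop⟩
  -- `W → W / F_n = W / 0` is bijective
  have hbij : Function.Bijective (mk (Fin.last n)) := by
    refine ⟨?_, hmksurj _⟩
    rw [injective_iff_map_eq_zero]
    intro a ha
    have h1 : a ∈ (F (Fin.last n : ℕ)).addSubgroupOf (F 0) :=
      (QuotientAddGroup.eq_zero_iff a).mp ha
    rw [AddSubgroup.mem_addSubgroupOf, Fin.val_last, hS.bot, AddSubgroup.mem_bot] at h1
    exact Subtype.ext h1
  have hinj := mzds_H1map_injective_of_bijective (mk (Fin.last n)) (hmk _) hbij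
  have e1 : Nat.card ↥(Sel (Fin.last n)) = Nat.card ↥L :=
    (Nat.card_congr (L.equivMapOfInjective _ hinj).toEquiv).symm
  have e2 : Nat.card ↥(mzh_H0 ↥(Ap.inertiaSubgroupIn ℚ) (mzds_Obj F n (Fin.last n))) =
      Nat.card ↥(mzh_H0 ↥(Ap.inertiaSubgroupIn ℚ) ↥(F 0)) :=
    (mzds_card_H0_of_bijective (Γ := ↥(Ap.inertiaSubgroupIn ℚ)) (mk (Fin.last n))
      (fun σ w => hmk _ σ w) hbij).symm
  have e2' : Nat.card ↥(mzh_H0 ↥(Subgroup.zpowers c) (mzds_Obj F n (Fin.last n))) =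
      Nat.card ↥(mzh_H0 ↥(Subgroup.zpowers c) ↥(F 0)) :=
    (mzds_card_H0_of_bijective (Γ := ↥(Subgroup.zpowers c)) (mk (Fin.last n))
      (fun σ w => hmk _ σ w) hbij).symm
  have e3 : Nat.card ↥(mzh_H0 GQ (mzds_Obj F n (Fin.last n))) = Nat.card ↥(mzh_H0 GQ ↥(F 0)) :=
    (mzds_card_H0_of_bijective (mk (Fin.last n)) (hmk _) hbij).symm
  have e4 : Nat.card (mzds_Obj F n (Fin.last n)) = Nat.card ↥(F 0) :=
    (Nat.card_congr (Equiv.ofBijective _ hbij)).symm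
  have e5 : Z (Fin.last n) = 1 := rfl
  rw [e1, e2, e2', e3, e4, e5, mul_one] at hineq
  refine ⟨?_, hineq⟩
  haveI := hfin
  exact Finite.of_equiv _ (L.equivMapOfInjective _ hinj).symm.toEquiv

/-- **[F-DESC] The Selmer bound, final form**: with the balances `|W| ≤ |W^{I_p}|²` ((F3)) and
`|W| ≤ |W^{⟨c⟩}|²` ((F2)), `|L| ≤ |W^{G_ℚ}|`. -/
theorem mzds_bound2 (p r : ℕ) (hp : p.Prime) (hr : r.Prime) [NeZero r] (hrp : r ≠ p)
    (Ap Ar : ValuationSubring Qb) (hAp : Ap.LiesOverPrime p) (hAr : Ar.LiesOverPrime r)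
    (ι : Qb →+* ℂ) (c : GQ) (hc : ∀ z : Qb, ι (c z) = starRingEnd ℂ (ι z))
    (hS : mzds_IsSeries r (mzds_cyc r) n F eps)
    [iW : DistribMulAction GQ ↥(F 0)]
    (hcompat : ∀ (σ : GQ) (w : ↥(F 0)), ((σ • w : ↥(F 0)) : J) = σ • (w : J))
    {O : Type} [CommRing O] [IsDomain O] [IsDiscreteValuationRing O] [Algebra O Qb]
    (hctx : mzo_Ctx r O Qb Ar ↥(Ar.inertiaSubgroupIn ℚ))
    (hopen : ∀ g : ↥(F 0), ∃ K : IntermediateField ℚ Qb, FiniteDimensional ℚ K ∧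
      ∀ σ ∈ K.fixingSubgroup, σ • g = g)
    (L : AddSubgroup (mzh_H1 GQ ↥(F 0)))
    (hL1 : ∀ x ∈ L, mzq_Cont x)
    (hL2 : ∀ ℓ : ℕ, ℓ.Prime → ℓ ≠ p → ℓ ≠ r → ∃ A : ValuationSubring Qb, A.LiesOverPrime ℓ ∧
      (∀ σ ∈ A.inertiaSubgroupIn ℚ, ∀ g : ↥(F 0), σ • g = g) ∧
      ∀ x ∈ L, mzh_H1resSub (A.inertiaSubgroupIn ℚ) x = 0)
    (hL3 : ∀ x ∈ L, mzh_H1resSub (Ap.inertiaSubgroupIn ℚ) x = 0)
    (hL4 : ∀ x ∈ L, mzds_FlatAt O Ar x)
    (hL5 : ∀ x ∈ L, mzh_H1resSub (Subgroup.zpowers c) x = 0)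
    (hF3 : Nat.card ↥(F 0) ≤ Nat.card ↥(mzh_H0 ↥(Ap.inertiaSubgroupIn ℚ) ↥(F 0)) ^ 2)
    (hF2 : Nat.card ↥(F 0) ≤ Nat.card ↥(mzh_H0 ↥(Subgroup.zpowers c) ↥(F 0)) ^ 2) :
    Finite ↥L ∧ Nat.card ↥L ≤ Nat.card ↥(mzh_H0 GQ ↥(F 0)) := by
  obtain ⟨hfin, hineq⟩ := mzds_main2 p r hp hr hrp Ap Ar hAp hAr ι c hc hS hcompat hctx hopen L
    hL1 hL2 hL3 hL4 hL5
  refine ⟨hfin, ?_⟩
  set w := Nat.card ↥(F 0) with hw
  set a := Nat.card ↥(mzh_H0 ↥(Ap.inertiaSubgroupIn ℚ) ↥(F 0)) with ha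
  set b := Nat.card ↥(mzh_H0 ↥(Subgroup.zpowers c) ↥(F 0)) with hb
  -- `w ≤ a * b`
  have hbal : w ≤ a * b := by
    have h1 : w ^ 2 ≤ (a * b) ^ 2 := by
      calc w ^ 2 = w * w := sq w
        _ ≤ a ^ 2 * b ^ 2 := Nat.mul_le_mul hF3 hF2
        _ = (a * b) ^ 2 := (mul_pow a b 2).symm
    exact (Nat.pow_le_pow_iff_left (by norm_num)).mp h1
  have hWpos : 0 < w := by
    rcases Nat.eq_zero_or_pos w with h0 | h0
    · exfalso
      have hfinW : Finite ↥(F 0) := by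
        have htop' : Nat.card (mzds_SQ (F 0) (F n)) = r ^ n := mzds_card_obj hS le_rfl
        haveI : Finite (mzds_SQ (F 0) (F n)) :=
          Nat.finite_of_card_ne_zero (by rw [htop']; exact pow_ne_zero _ hr.ne_zero)
        refine Finite.of_injective (QuotientAddGroup.mk' ((F n).addSubgroupOf (F 0))) ?_
        rw [injective_iff_map_eq_zero]
        intro x hx
        have h1 : x ∈ (F n).addSubgroupOf (F 0) := (QuotientAddGroup.eq_zero_iff x).mp hx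
        rw [AddSubgroup.mem_addSubgroupOf, hS.bot, AddSubgroup.mem_bot] at h1
        exact Subtype.ext h1
      exact absurd h0 Nat.card_pos.ne'
    · exact h0
  have hpos : 0 < a * b := lt_of_lt_of_le hWpos hbal
  apply Nat.le_of_mul_le_mul_right _ hpos
  calc Nat.card ↥L * (a * b) = Nat.card ↥L * a * b := by ring
    _ ≤ Nat.card ↥(mzh_H0 GQ ↥(F 0)) * w := hineq
    _ ≤ Nat.card ↥(mzh_H0 GQ ↥(F 0)) * (a * b) := Nat.mul_le_mul_left _ hbal

end Main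

end Fermat.Agent.MZ
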