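/-
Project MAZUR (S15), node [F-DESC] (helper9), VERSION 2, CONSUMER FORMS of the Selmer bound
`mzds_main2` (`MZ/Desc/Main2.lean`):
* `mzds_conj_sq`       : a complex conjugation `c` satisfies `c * c = 1`;
* `mzds_main_series`   : `mzds_main2` for a subgroup `W ≤ J` with a series in the shape of
                         helper7's `mzf1_Series r W` (the body of that definition, verbatim);
* `mzds_bound_series`  : with the balances (F3), (F2): `|L| ≤ |W^{G_ℚ}|`;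
* `mzds_bound_all`     : for a subgroup `L₀` satisfying (C1)-(C4) only (no condition at the
                         archimedean place): `L₀` is finite and `|L₀| ≤ |W[2]| · |W^{G_ℚ}|`
                         (helper4's index lemma `mzs_ri_real_index`).
Prefix `mzds_`.
-/
import Fermat.Agent.MZ.Desc.Main2
import Fermat.Agent.MZ.S.RealIdx

set_option autoImplicit false
set_option linter.style.haveILetI false
set_option linter.unusedSectionVars false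

noncomputable section

namespace Fermat.Agent.MZ

local notation "Qb" => AlgebraicClosure ℚ
local notation "GQ" => (AlgebraicClosure ℚ ≃ₐ[ℚ] AlgebraicClosure ℚ)

/-- A complex conjugation is an involution. -/
theorem mzds_conj_sq (ι : Qb →+* ℂ) (c : GQ) (hc : ∀ z : Qb, ι (c z) = starRingEnd ℂ (ι z)) :
    c * c = 1 := by
  apply AlgEquiv.ext
  intro z
  apply ι.injective
  rw [AlgEquiv.mul_apply, hc, hc, AlgEquiv.one_apply]
  exact Complex.conj_conj _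

section Series

variable {J : Type} [AddCommGroup J] [DistribMulAction GQ J]

/-- **[F-DESC] The Selmer bound for a subgroup `W ≤ J` with a series as produced by (F1)**
(`hser` is the body of `mzf1_Series r W`, with `mzds_cyc r = mzf1_cyc r`). -/
theorem mzds_main_series (p r : ℕ) (hp : p.Prime) (hr : r.Prime) [NeZero r] (hrp : r ≠ p)
    (Ap Ar : ValuationSubring Qb) (hAp : Ap.LiesOverPrime p) (hAr : Ar.LiesOverPrime r)
    (ι : Qb →+* ℂ) (c : GQ) (hc : ∀ z : Qb, ι (c z) = starRingEnd ℂ (ι z))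
    (W : AddSubgroup J)
    (hser : ∃ (n : ℕ) (F : ℕ → AddSubgroup J) (eps : ℕ → Bool), F 0 = W ∧ F n = ⊥ ∧ ∀ i < n,
      F (i + 1) ≤ F i ∧ (∀ σ : GQ, ∀ x ∈ F i, σ • x ∈ F i) ∧ (F (i + 1)).relIndex (F i) = r ∧
        ∀ σ : GQ, ∀ x ∈ F i, σ • x - (if eps i then mzds_cyc r σ • x else x) ∈ F (i + 1))
    [iW : DistribMulAction GQ ↥W]
    (hcompat : ∀ (σ : GQ) (w : ↥W), ((σ • w : ↥W) : J) = σ • (w : J))
    {O : Type} [CommRing O] [IsDomain O] [IsDiscreteValuationRing O] [Algebra O Qb]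
    (hctx : mzo_Ctx r O Qb Ar ↥(Ar.inertiaSubgroupIn ℚ))
    (hopen : ∀ g : ↥W, ∃ K : IntermediateField ℚ Qb, FiniteDimensional ℚ K ∧
      ∀ σ ∈ K.fixingSubgroup, σ • g = g)
    (L : AddSubgroup (mzh_H1 GQ ↥W))
    (hL1 : ∀ x ∈ L, mzq_Cont x)
    (hL2 : ∀ ℓ : ℕ, ℓ.Prime → ℓ ≠ p → ℓ ≠ r → ∃ A : ValuationSubring Qb, A.LiesOverPrime ℓ ∧
      (∀ σ ∈ A.inertiaSubgroupIn ℚ, ∀ g : ↥W, σ • g = g) ∧
      ∀ x ∈ L, mzh_H1resSub (A.inertiaSubgroupIn ℚ) x = 0)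
    (hL3 : ∀ x ∈ L, mzh_H1resSub (Ap.inertiaSubgroupIn ℚ) x = 0)
    (hL4 : ∀ x ∈ L, mzds_FlatAt O Ar x)
    (hL5 : ∀ x ∈ L, mzh_H1resSub (Subgroup.zpowers c) x = 0) :
    Finite ↥L ∧
      Nat.card ↥L * Nat.card ↥(mzh_H0 ↥(Ap.inertiaSubgroupIn ℚ) ↥W) *
          Nat.card ↥(mzh_H0 ↥(Subgroup.zpowers c) ↥W) ≤
        Nat.card ↥(mzh_H0 GQ ↥W) * Nat.card ↥W := by
  obtain ⟨n, F, eps, rfl, hn, hstep⟩ := hser
  have hS : mzds_IsSeries r (mzds_cyc r) n F eps :=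
    ⟨hn, fun i hi => ⟨(hstep i hi).1, fun σ a ha => (hstep i hi).2.1 σ a ha,
      (hstep i hi).2.2.1, (hstep i hi).2.2.2⟩⟩
  exact mzds_main2 p r hp hr hrp Ap Ar hAp hAr ι c hc hS hcompat hctx hopen L hL1 hL2 hL3 hL4 hL5

/-- **[F-DESC], final form**: with the balances `|W| ≤ |W^{I_p}|²` ((F3)) and
`|W| ≤ |W^{⟨c⟩}|²` ((F2)): `|L| ≤ |W^{G_ℚ}|`. -/
theorem mzds_bound_series (p r : ℕ) (hp : p.Prime) (hr : r.Prime) [NeZero r] (hrp : r ≠ p)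
    (Ap Ar : ValuationSubring Qb) (hAp : Ap.LiesOverPrime p) (hAr : Ar.LiesOverPrime r)
    (ι : Qb →+* ℂ) (c : GQ) (hc : ∀ z : Qb, ι (c z) = starRingEnd ℂ (ι z))
    (W : AddSubgroup J)
    (hser : ∃ (n : ℕ) (F : ℕ → AddSubgroup J) (eps : ℕ → Bool), F 0 = W ∧ F n = ⊥ ∧ ∀ i < n,
      F (i + 1) ≤ F i ∧ (∀ σ : GQ, ∀ x ∈ F i, σ • x ∈ F i) ∧ (F (i + 1)).relIndex (F i) = r ∧
        ∀ σ : GQ, ∀ x ∈ F i, σ • x - (if eps i then mzds_cyc r σ • x else x) ∈ F (i + 1))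
    [iW : DistribMulAction GQ ↥W]
    (hcompat : ∀ (σ : GQ) (w : ↥W), ((σ • w : ↥W) : J) = σ • (w : J))
    {O : Type} [CommRing O] [IsDomain O] [IsDiscreteValuationRing O] [Algebra O Qb]
    (hctx : mzo_Ctx r O Qb Ar ↥(Ar.inertiaSubgroupIn ℚ))
    (hopen : ∀ g : ↥W, ∃ K : IntermediateField ℚ Qb, FiniteDimensional ℚ K ∧
      ∀ σ ∈ K.fixingSubgroup, σ • g = g)
    (L : AddSubgroup (mzh_H1 GQ ↥W))
    (hL1 : ∀ x ∈ L, mzq_Cont x)
    (hL2 : ∀ ℓ : ℕ, ℓ.Prime → ℓ ≠ p → ℓ ≠ r → ∃ A : ValuationSubring Qb, A.LiesOverPrime ℓ ∧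
      (∀ σ ∈ A.inertiaSubgroupIn ℚ, ∀ g : ↥W, σ • g = g) ∧
      ∀ x ∈ L, mzh_H1resSub (A.inertiaSubgroupIn ℚ) x = 0)
    (hL3 : ∀ x ∈ L, mzh_H1resSub (Ap.inertiaSubgroupIn ℚ) x = 0)
    (hL4 : ∀ x ∈ L, mzds_FlatAt O Ar x)
    (hL5 : ∀ x ∈ L, mzh_H1resSub (Subgroup.zpowers c) x = 0)
    (hF3 : Nat.card ↥W ≤ Nat.card ↥(mzh_H0 ↥(Ap.inertiaSubgroupIn ℚ) ↥W) ^ 2)
    (hF2 : Nat.card ↥W ≤ Nat.card ↥(mzh_H0 ↥(Subgroup.zpowers c) ↥W) ^ 2) :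
    Finite ↥L ∧ Nat.card ↥L ≤ Nat.card ↥(mzh_H0 GQ ↥W) := by
  obtain ⟨n, F, eps, rfl, hn, hstep⟩ := hser
  have hS : mzds_IsSeries r (mzds_cyc r) n F eps :=
    ⟨hn, fun i hi => ⟨(hstep i hi).1, fun σ a ha => (hstep i hi).2.1 σ a ha,
      (hstep i hi).2.2.1, (hstep i hi).2.2.2⟩⟩
  exact mzds_bound2 p r hp hr hrp Ap Ar hAp hAr ι c hc hS hcompat hctx hopen L hL1 hL2 hL3 hL4
    hL5 hF3 hF2

/-- **[F-DESC], final form without a condition at the archimedean place**: a subgroup `L₀` of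
classes satisfying (C1)-(C4) is finite and `|L₀| ≤ |W[2]| · |W^{G_ℚ}|`. -/
theorem mzds_bound_all (p r : ℕ) (hp : p.Prime) (hr : r.Prime) [NeZero r] (hrp : r ≠ p)
    (Ap Ar : ValuationSubring Qb) (hAp : Ap.LiesOverPrime p) (hAr : Ar.LiesOverPrime r)
    (ι : Qb →+* ℂ) (c : GQ) (hc : ∀ z : Qb, ι (c z) = starRingEnd ℂ (ι z))
    (W : AddSubgroup J)
    (hser : ∃ (n : ℕ) (F : ℕ → AddSubgroup J) (eps : ℕ → Bool), F 0 = W ∧ F n = ⊥ ∧ ∀ i < n,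
      F (i + 1) ≤ F i ∧ (∀ σ : GQ, ∀ x ∈ F i, σ • x ∈ F i) ∧ (F (i + 1)).relIndex (F i) = r ∧
        ∀ σ : GQ, ∀ x ∈ F i, σ • x - (if eps i then mzds_cyc r σ • x else x) ∈ F (i + 1))
    [iW : DistribMulAction GQ ↥W]
    (hcompat : ∀ (σ : GQ) (w : ↥W), ((σ • w : ↥W) : J) = σ • (w : J))
    {O : Type} [CommRing O] [IsDomain O] [IsDiscreteValuationRing O] [Algebra O Qb]
    (hctx : mzo_Ctx r O Qb Ar ↥(Ar.inertiaSubgroupIn ℚ))
    (hopen : ∀ g : ↥W, ∃ K : IntermediateField ℚ Qb, FiniteDimensional ℚ K ∧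
      ∀ σ ∈ K.fixingSubgroup, σ • g = g)
    (L₀ : AddSubgroup (mzh_H1 GQ ↥W))
    (hL1 : ∀ x ∈ L₀, mzq_Cont x)
    (hL2 : ∀ ℓ : ℕ, ℓ.Prime → ℓ ≠ p → ℓ ≠ r → ∃ A : ValuationSubring Qb, A.LiesOverPrime ℓ ∧
      (∀ σ ∈ A.inertiaSubgroupIn ℚ, ∀ g : ↥W, σ • g = g) ∧
      ∀ x ∈ L₀, mzh_H1resSub (A.inertiaSubgroupIn ℚ) x = 0)
    (hL3 : ∀ x ∈ L₀, mzh_H1resSub (Ap.inertiaSubgroupIn ℚ) x = 0)
    (hL4 : ∀ x ∈ L₀, mzds_FlatAt O Ar x)
    (hF3 : Nat.card ↥W ≤ Nat.card ↥(mzh_H0 ↥(Ap.inertiaSubgroupIn ℚ) ↥W) ^ 2)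
    (hF2 : Nat.card ↥W ≤ Nat.card ↥(mzh_H0 ↥(Subgroup.zpowers c) ↥W) ^ 2) :
    Finite ↥L₀ ∧
      Nat.card ↥L₀ ≤ Nat.card {x : ↥W // 2 • x = 0} * Nat.card ↥(mzh_H0 GQ ↥W) := by
  have hc2 : c * c = 1 := mzds_conj_sq ι c hc
  set res := mzh_H1resSub (Γ := GQ) (A := ↥W) (Subgroup.zpowers c) with hres
  set L := L₀ ⊓ res.ker with hL
  have hLle : L ≤ L₀ := inf_le_left
  obtain ⟨hfin, hle⟩ := mzds_bound_series p r hp hr hrp Ap Ar hAp hAr ι c hc W hser hcompat hctx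
    hopen L (fun x hx => hL1 x (hLle hx))
    (fun ℓ hℓ hℓp hℓr => by
      obtain ⟨A, hA, hAW, hAL⟩ := hL2 ℓ hℓ hℓp hℓr
      exact ⟨A, hA, hAW, fun x hx => hAL x (hLle hx)⟩)
    (fun x hx => hL3 x (hLle hx)) (fun x hx => hL4 x (hLle hx))
    (fun x hx => (AddMonoidHom.mem_ker).mp (inf_le_right (a := L₀) hx)) hF3 hF2
  -- `W` is finite
  haveI hfinW : Finite ↥W := by
    obtain ⟨n, F, eps, rfl, hn, hstep⟩ := hser
    have hS : mzds_IsSeries r (mzds_cyc r) n F eps :=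
      ⟨hn, fun i hi => ⟨(hstep i hi).1, fun σ a ha => (hstep i hi).2.1 σ a ha,
        (hstep i hi).2.2.1, (hstep i hi).2.2.2⟩⟩
    have htop' : Nat.card (mzds_SQ (F 0) (F n)) = r ^ n := mzds_card_obj hS le_rfl
    haveI : Finite (mzds_SQ (F 0) (F n)) :=
      Nat.finite_of_card_ne_zero (by rw [htop']; exact pow_ne_zero _ hr.ne_zero)
    refine Finite.of_injective (QuotientAddGroup.mk' ((F n).addSubgroupOf (F 0))) ?_
    rw [injective_iff_map_eq_zero]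
    intro a ha
    have h1 : a ∈ (F n).addSubgroupOf (F 0) := (QuotientAddGroup.eq_zero_iff a).mp ha
    rw [AddSubgroup.mem_addSubgroupOf, hS.bot, AddSubgroup.mem_bot] at h1
    exact Subtype.ext h1
  have hidx := mzs_ri_real_index (W := ↥W) c hc2 L₀
  constructor
  · -- finiteness: finite kernel and finite range
    haveI := hfin
    haveI hfinH := mzs_ri_finite_H1_zpowers (W := ↥W) c hc2
    set g : ↥L₀ →+ mzh_H1 ↥(Subgroup.zpowers c) ↥W := res.comp L₀.subtype with hg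
    haveI hker : Finite ↥g.ker := by
      refine Finite.of_injective (fun x : ↥g.ker => (⟨(x : ↥L₀), ?_⟩ : ↥L)) ?_
      · refine ⟨(x : ↥L₀).2, ?_⟩
        have h1 : g (x : ↥L₀) = 0 := (AddMonoidHom.mem_ker).mp x.2
        exact (AddMonoidHom.mem_ker).mpr h1
      · intro x y hxy
        apply Subtype.ext
        apply Subtype.ext
        exact congrArg (fun z : ↥L => (z : mzh_H1 GQ ↥W)) hxy
    haveI hquot : Finite (↥L₀ ⧸ g.ker) :=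
      Finite.of_equiv _ (QuotientAddGroup.quotientKerEquivRange g).symm.toEquiv
    exact Finite.of_addSubgroup_quotient g.ker
  · calc Nat.card ↥L₀ ≤ Nat.card {x : ↥W // 2 • x = 0} * Nat.card ↥L := hidx
      _ ≤ Nat.card {x : ↥W // 2 • x = 0} * Nat.card ↥(mzh_H0 GQ ↥W) :=
        Nat.mul_le_mul_left _ hle

end Series

end Fermat.Agent.MZ
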