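/-
Project MAZUR (S15), node [F-DESC] / [MZ-F'] (helper9): (CNT-I) FROM THE SELMER BOUND AT `L = ⊥`.

`mzds_main_series` (`MZ/Desc/Final2.lean`) applied to the zero subgroup of `H¹(G_ℚ, W_k)`
(`W_k = mzs_in_W p r S k`) reads `|W_k^{I_p}| · |W_k^{⟨c⟩}| ≤ |W_k^{G_ℚ}| · |W_k|`; with the balance
(F2) `|W_k| ≤ |W_k^{⟨c⟩}|²` and `|W_k^{G_ℚ}| ≤ C₁ := #J(ℚ)_tors`:
  `|W_k^{I_p}|² ≤ C₁² · |W_k|`                (CNT-I),
in the shape of the hypothesis `hcnt` of helper14's `mzf3_final` (all primes `r ≠ p`, incl. `r = 2`).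
* `mzds_cb_ineq` : the inequality at `L = ⊥`;
* `mzds_cb_cnt`  : (CNT-I).
Prefix `mzds_cb_`.
-/
import Fermat.Agent.MZ.Desc.Final2
import Fermat.Agent.MZ.S.Flat
import Fermat.Agent.MZ.S.Local
import Fermat.Agent.MZ.S.Sel
import Fermat.Agent.MZ.S.Eis
import Fermat.Agent.MZ.Top.Asm
import Fermat.Agent.MW.Final
import Fermat.Agent.MZ.F3.CntBridge

set_option autoImplicit false
set_option linter.style.haveILetI false
set_option linter.unusedSectionVars false

noncomputable section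

namespace Fermat.Agent.MZ

open ModularCurve AlgebraicCurve Fermat.Agent.JT3

local notation "Qb" => AlgebraicClosure ℚ
local notation "GQ" => (AlgebraicClosure ℚ ≃ₐ[ℚ] AlgebraicClosure ℚ)

variable (p : ℕ) [NeZero p]

/-- The action of `G_ℚ` on `W_k`. -/
@[reducible] def mzds_cb_act (r : ℕ) (S : Finset ℕ) (k : ℕ) :
    DistribMulAction GQ ↥(mzs_in_W p r S k) :=
  mzh_subAction (mzs_in_W p r S k) (mzs_fl_stable p r S k)

attribute [local instance] mzds_cb_act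

variable {p}

/-- **The Selmer inequality at `L = ⊥`.** -/
theorem mzds_cb_ineq (hp : p.Prime) (hp5 : 5 ≤ p) (r : ℕ) [hr : Fact r.Prime] (hrp : r ≠ p)
    (S : Finset ℕ) (hpS : p ∈ S) (hrS : r ∈ S)
    (Ap : ValuationSubring Qb) (hAp : Ap.LiesOverPrime p)
    (ι : Qb →+* ℂ) (c : GQ) (hc : ∀ z : Qb, ι (c z) = starRingEnd ℂ (ι z)) (k : ℕ) :
    Nat.card ↥(mzh_H0 ↥(Ap.inertiaSubgroupIn ℚ) ↥(mzs_in_W p r S k)) *
        Nat.card ↥(mzh_H0 ↥(Subgroup.zpowers c) ↥(mzs_in_W p r S k)) ≤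
      Nat.card ↥(mzh_H0 GQ ↥(mzs_in_W p r S k)) * Nat.card ↥(mzs_in_W p r S k) := by
  haveI : NeZero r := ⟨hr.out.ne_zero⟩
  obtain ⟨Ar, hAr⟩ := mzt_exists_place r hr.out
  haveI := mzg_ctx_dvr r Ar hAr
  set W := mzs_in_W p r S k with hWdef
  have hW : mzh_Stable GQ W := mzs_fl_stable p r S k
  have hWtors : ∀ x ∈ W, r ^ k • x = 0 := fun x hx => ((mzs_in_mem_W p r S k x).1 hx).1
  have hbot : ∀ x ∈ (⊥ : AddSubgroup (mzh_H1 GQ ↥W)), x = 0 := fun x hx =>
    (AddSubgroup.mem_bot).mp hx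
  obtain ⟨-, hineq⟩ := mzds_main_series p r hp hr.out hrp Ap Ar hAp hAr ι c hc W
    (mzs_ei_series p hp r S hpS hrS k) (fun _ _ => rfl)
    (O := ↥(Fermat.Agent.FF.ffi_O Ar ↥(Fermat.Agent.FF.ffi_L Ar))) (mzg_ctx r Ar hAr)
    (fun g => by
      obtain ⟨K, hK, hKg⟩ := mzs_ku_smooth p (g : JZero p)
      exact ⟨K, hK, fun σ hσ => Subtype.ext (sub_eq_zero.mp (hKg σ hσ))⟩)
    (⊥ : AddSubgroup (mzh_H1 GQ ↥W))
    (fun x hx => by
      rw [hbot x hx]
      exact ⟨0, map_zero _, ⊥, inferInstance, fun σ _ => rfl⟩)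
    (fun ℓ hℓ hℓp hℓr => by
      obtain ⟨A, hA⟩ := mzt_exists_place ℓ hℓ
      have hℓrk : ¬ ℓ ∣ r ^ k := fun h =>
        hℓr ((Nat.prime_dvd_prime_iff_eq hℓ hr.out).1 (hℓ.dvd_of_dvd_pow h))
      have hℓp' : ¬ ℓ ∣ p := fun h => hℓp ((Nat.prime_dvd_prime_iff_eq hℓ hp).1 h)
      refine ⟨A, hA, fun σ hσ g => ?_, fun x hx => ?_⟩
      · apply Subtype.ext
        refine mzs_ku_unr p (r ^ k) ℓ hℓ hℓrk hℓp' A hA σ hσ (g : JZero p) ?_
        rw [hWtors g g.2]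
        exact smul_zero (A := JZero p) σ
      · rw [hbot x hx, map_zero])
    (fun x hx => by rw [hbot x hx, map_zero])
    (fun x hx => by
      rw [hbot x hx]
      obtain ⟨H, hH, hflat⟩ := mzs_fl_flat p hp hp5 r hrp S hpS k Ar hAr {0}
        (Set.finite_singleton 0)
        (fun Q' hQ' σ _ => by
          rw [Set.mem_singleton_iff] at hQ'
          rw [hQ', smul_zero]
          exact smul_zero (A := JZero p) σ)
      refine ⟨H, hH, 0, map_zero _, hflat 0 (Set.mem_singleton 0) _ (fun σ => ?_)⟩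
      show ((0 : ↥W) : JZero p) = _
      rw [sub_zero]
      exact (smul_zero (A := JZero p) (σ : GQ)).symm)
    (fun x hx => by rw [hbot x hx, map_zero])
  have h1 : Nat.card ↥(⊥ : AddSubgroup (mzh_H1 GQ ↥W)) = 1 := Nat.card_unique
  rw [h1, one_mul] at hineq
  exact hineq

/-- **(CNT-I)**, in the shape of `hcnt` of `mzf3_final`. -/
theorem mzds_cb_cnt (hp : p.Prime) (hp5 : 5 ≤ p) (r : ℕ) [hr : Fact r.Prime] (hrp : r ≠ p)
    (S : Finset ℕ) (hpS : p ∈ S) (hrS : r ∈ S)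
    (A : ValuationSubring Qb) (hA : A.LiesOverPrime p)
    (ι : Qb →+* ℂ) (c : GQ) (hc : ∀ z : Qb, ι (c z) = starRingEnd ℂ (ι z))
    (hF2 : ∀ k : ℕ, Nat.card ↥(mzs_in_W p r S k) ≤
      Nat.card ↥(mzh_H0 ↥(Subgroup.zpowers c) ↥(mzs_in_W p r S k)) ^ 2) (k : ℕ) :
    Nat.card {x : ↥(mzs_in_W p r S k) // ∀ σ ∈ A.inertiaSubgroupIn ℚ,
        σ • (x : JZero p) = x} ^ 2 ≤
      mzs_sl_C0 GQ (JZero p) ^ 2 * Nat.card ↥(mzs_in_W p r S k) := by
  have hineq := mzds_cb_ineq hp hp5 r hrp S hpS hrS A hA ι c hc k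
  have hcard := mzf3_cb_card (Γ := GQ) (mzs_in_W p r S k) (fun _ _ => rfl) (A.inertiaSubgroupIn ℚ)
  rw [← hcard]
  have hW : mzh_Stable GQ (mzs_in_W p r S k) := mzs_fl_stable p r S k
  have hWtors : ∀ x ∈ mzs_in_W p r S k, r ^ k • x = 0 := fun x hx =>
    ((mzs_in_mem_W p r S k x).1 hx).1
  have hT : Nat.card ↥(mzh_H0 GQ ↥(mzs_in_W p r S k)) ≤ mzs_sl_C0 GQ (JZero p) :=
    mzs_sl_card_H0_le (Fermat.Agent.MW.mw_final_S17 p hp hp5) (mzs_in_W p r S k) hW
      (fun x hx => ⟨r ^ k, pow_ne_zero k hr.out.ne_zero, hWtors x hx⟩)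
  set a := Nat.card ↥(mzh_H0 ↥(A.inertiaSubgroupIn ℚ) ↥(mzs_in_W p r S k)) with ha
  set b := Nat.card ↥(mzh_H0 ↥(Subgroup.zpowers c) ↥(mzs_in_W p r S k)) with hb
  set g := Nat.card ↥(mzh_H0 GQ ↥(mzs_in_W p r S k)) with hg
  set w := Nat.card ↥(mzs_in_W p r S k) with hw
  set C := mzs_sl_C0 GQ (JZero p) with hC
  have hF2k : w ≤ b ^ 2 := hF2 k
  -- `a * b ≤ g * w`, `w ≤ b ^ 2`, `g ≤ C`  ⟹  `a ^ 2 ≤ C ^ 2 * w`
  rcases Nat.eq_zero_or_pos w with hw0 | hwpos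
  · -- `W` infinite is impossible, but the inequality is trivial anyway: `a ≤ w`... use `a = 0`
    have ha0 : a = 0 := by
      rcases Nat.eq_zero_or_pos a with h | h
      · exact h
      · exfalso
        haveI : Finite ↥(mzh_H0 ↥(A.inertiaSubgroupIn ℚ) ↥(mzs_in_W p r S k)) :=
          Nat.finite_of_card_ne_zero h.ne'
        -- `0 ∈ W`, so `W` is nonempty; `w = 0` means `W` is infinite
        have hinf : Infinite ↥(mzs_in_W p r S k) := by
          rcases finite_or_infinite ↥(mzs_in_W p r S k) with hf | hi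
          · exact absurd hw0 (Nat.card_pos (α := ↥(mzs_in_W p r S k))).ne'
          · exact hi
        -- then `b = 0` or ... : use `hineq` with `g * w = 0`
        have : a * b = 0 := Nat.le_zero.mp (by rw [hw0, mul_zero] at hineq; exact hineq)
        rcases Nat.mul_eq_zero.mp this with h' | h'
        · exact absurd h' h.ne'
        · -- `b = 0` contradicts `w ≤ b^2`?  no: `w = 0`. Use finiteness of `W` instead.
          have hfinW : Finite ↥(mzs_in_W p r S k) := by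
            haveI := mzs_in_fin (p := p) r hr.out k
            let ψ : ↥(mzs_in_W p r S k) → {x : JZero p // r ^ k • x = 0} :=
              fun x => ⟨x.1, hWtors x.1 x.2⟩
            refine Finite.of_injective ψ ?_
            intro x y hxy
            have h1 : (ψ x).1 = (ψ y).1 := congrArg Subtype.val hxy
            exact Subtype.ext h1
          exact not_finite ↥(mzs_in_W p r S k)
    rw [ha0]
    simp
  · have hbpos : 0 < b := by
      rcases Nat.eq_zero_or_pos b with h | h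
      · rw [h] at hF2k
        simp at hF2k
        omega
      · exact h
    have h2 : a ^ 2 * b ^ 2 ≤ (C ^ 2 * w) * b ^ 2 := by
      calc a ^ 2 * b ^ 2 = (a * b) ^ 2 := (mul_pow a b 2).symm
        _ ≤ (g * w) ^ 2 := Nat.pow_le_pow_left hineq 2
        _ = g ^ 2 * w * w := by ring
        _ ≤ C ^ 2 * w * b ^ 2 :=
          Nat.mul_le_mul (Nat.mul_le_mul_right _ (Nat.pow_le_pow_left hT 2)) hF2k
    exact Nat.le_of_mul_le_mul_right h2 (pow_pos hbpos 2)

end Fermat.Agent.MZ
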